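/-
helper62.  Frobenius density theorem (existence form): the statement in the language of the
Prelude (valuation subrings of `ℚ̄`, Frobenius lifts).
-/
import Mathlib
import Fermat.Prelude.Def_EllipticCurve_FrobeniusTrace

set_option autoImplicit false

namespace Fermat.Agent.Lib.FrobDensity

/-- `ℚ̄`. -/
abbrev Qbar := AlgebraicClosure ℚ

/-- **Frobenius density, existence form, in `Gal(ℚ̄/ℚ)`.** For every finite subextension `L` of
`ℚ̄`, every `g ∈ Gal(ℚ̄/ℚ)` and every finite set `bad` of primes there are a prime `l ∉ bad`, a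
valuation subring `A` of `ℚ̄` over `l` and a Frobenius lift `σ` at `A` some power of which agrees
with `g` on `L`. -/
def FrobPowerDense : Prop :=
  ∀ (L : IntermediateField ℚ Qbar), FiniteDimensional ℚ L → ∀ (g : Qbar ≃ₐ[ℚ] Qbar)
    (bad : Finset ℕ), ∃ l : ℕ, l.Prime ∧ l ∉ bad ∧ ∃ A : ValuationSubring Qbar,
      A.LiesOverPrime l ∧ ∃ σ : Qbar ≃ₐ[ℚ] Qbar, A.IsFrobeniusAt σ l ∧
        ∃ k : ℕ, ∀ x ∈ L, (σ ^ k) x = g x

/-- The two-sided form of `FrobPowerDense`: the restrictions of `σ` and `g` to `L` are powers of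
each other (they generate the same cyclic group when `L` is normal).  In particular, if `g` has
order two on `L` then `σ = g` on `L`. -/
def FrobGeneratorDense : Prop :=
  ∀ (L : IntermediateField ℚ Qbar), FiniteDimensional ℚ L → ∀ (g : Qbar ≃ₐ[ℚ] Qbar)
    (bad : Finset ℕ), ∃ l : ℕ, l.Prime ∧ l ∉ bad ∧ ∃ A : ValuationSubring Qbar,
      A.LiesOverPrime l ∧ ∃ σ : Qbar ≃ₐ[ℚ] Qbar, A.IsFrobeniusAt σ l ∧
        (∃ k : ℕ, ∀ x ∈ L, (σ ^ k) x = g x) ∧ (∃ j : ℕ, ∀ x ∈ L, (g ^ j) x = σ x)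

theorem frobPowerDense_of_frobGeneratorDense (h : FrobGeneratorDense) : FrobPowerDense := by
  intro L hL g bad
  obtain ⟨l, hl, hlb, A, hA, σ, hσ, hk, -⟩ := h L hL g bad
  exact ⟨l, hl, hlb, A, hA, σ, hσ, hk⟩

end Fermat.Agent.Lib.FrobDensity
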