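/-
helper62.  Frobenius density theorem (existence form), definitions and the elementary calculus of
"logarithmic densities" of sets of primes of a number field.

`primeSum K A s = ∑_{p ∈ A} N(p)^(-s)` and `HasLogDensity K A c` means
`primeSum K A s = c * log (1/(s-1)) + O(1)` for `s ∈ (1,2]`.
-/
import Mathlib

set_option autoImplicit false

namespace Fermat.Agent.Lib.FrobDensity

open NumberField IsDedekindDomain Filter Topology
open scoped Pointwise

variable (K : Type*) [Field K] [NumberField K]

/-- The term `N(p)^(-s)` attached to a nonzero prime `p` of `𝓞 K`. -/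
noncomputable def pterm (s : ℝ) (p : HeightOneSpectrum (𝓞 K)) : ℝ :=
  (Ideal.absNorm p.asIdeal : ℝ) ^ (-s)

/-- `∑_{p ∈ A} N(p)^(-s)`. -/
noncomputable def primeSum (A : Set (HeightOneSpectrum (𝓞 K))) (s : ℝ) : ℝ :=
  ∑' p : HeightOneSpectrum (𝓞 K), A.indicator (pterm K s) p

/-- `log (1/(s-1))`. -/
noncomputable def logPole (s : ℝ) : ℝ := Real.log (1 / (s - 1))

/-- `A` has logarithmic density `c`: `∑_{p ∈ A} N(p)^(-s) = c * log(1/(s-1)) + O(1)` on `(1,2]`. -/
def HasLogDensity (A : Set (HeightOneSpectrum (𝓞 K))) (c : ℝ) : Prop :=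
  ∃ C : ℝ, ∀ s : ℝ, 1 < s → s ≤ 2 → |primeSum K A s - c * logPole s| ≤ C


section Sets

variable (F E : Type*) [Field F] [NumberField F] [Field E] [NumberField E] [Algebra F E]

/-- The primes of `F` that split completely in `E` (as many primes above as the degree). -/
def splitSet : Set (HeightOneSpectrum (𝓞 F)) :=
  {q | (q.asIdeal.primesOver (𝓞 E)).ncard = Module.finrank F E}

/-- The primes of `F` of degree one over `ℚ` (prime absolute norm). -/
def degOneSet : Set (HeightOneSpectrum (𝓞 F)) := {q | (Ideal.absNorm q.asIdeal).Prime}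

/-- The primes of `F` all of whose decomposition groups in `Gal(E/F)` are contained in `H'`. -/
def decompSet [IsGalois F E] (H' : Subgroup Gal(E/F)) : Set (HeightOneSpectrum (𝓞 F)) :=
  {q | ∀ Q : Ideal (𝓞 E), Q.IsPrime → Q.LiesOver q.asIdeal →
    MulAction.stabilizer Gal(E/F) Q ≤ H'}

/-- The primes of `F` which are inert in `E` (every decomposition group is everything). -/
def inertSet [IsGalois F E] : Set (HeightOneSpectrum (𝓞 F)) :=
  {q | ∀ Q : Ideal (𝓞 E), Q.IsPrime → Q.LiesOver q.asIdeal →
    MulAction.stabilizer Gal(E/F) Q = ⊤}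

end Sets

end Fermat.Agent.Lib.FrobDensity
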