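/-
helper62.  Frobenius density theorem (existence form): statements of the work packages as
`Prop`-valued definitions, so that the packages can be developed in parallel, each taking the
earlier ones as hypotheses of exactly these shapes.

Plan (all sets are sets of nonzero primes of the base field, `HasLogDensity` is defined in
`Defs.lean`; `hasLogDensity_univ` in `PrimeSum.lean` is the only analytic input):

* `NonDegOneNull`  : the primes of absolute degree `≥ 2` have density `0`;
* `RamFinite`      : only finitely many primes have a nontrivial inertia group;
* `SplitDensity`   : the primes splitting completely in a Galois `E/F` have density `1/[E:F]`;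
* `DecompDensity`  : the primes whose decomposition groups lie in a normal subgroup `H'` have
                     density `1/[G:H']` (they are the primes splitting completely in `L^{H'}`);
* `InertDensity`   : in a cyclic extension the inert primes have density `∏_{p ∣ n} (1 - 1/p) > 0`
                     (inclusion-exclusion over the maximal subgroups, `InclExcl.lean`);
* `FrobGenerator`  : for `g ∈ Gal(L/ℚ)` some generator `g ^ k` of `⟨g⟩` is an arithmetic Frobenius
                     at an unramified prime over some `p ∉ S` (apply `InertDensity` to
                     `L / L^{⟨g⟩}` and intersect with the degree one primes);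
* `FrobPowerDense` : the same in the language of valuation subrings of `ℚ̄` (`QbarDefs.lean`).
-/
import Mathlib
import Fermat.Agent.Lib.FrobDensity.Defs
import Fermat.Agent.Lib.FrobDensity.QbarDefs

set_option autoImplicit false

namespace Fermat.Agent.Lib.FrobDensity

open NumberField IsDedekindDomain
open scoped Pointwise

universe u

/-- The primes of `F` above which some prime of `E` has a nontrivial inertia group. -/
def ramSet (F E : Type*) [Field F] [NumberField F] [Field E] [NumberField E] [Algebra F E]
    [IsGalois F E] : Set (HeightOneSpectrum (𝓞 F)) :=
  {q | ∃ Q : Ideal (𝓞 E), Q.IsPrime ∧ Q.LiesOver q.asIdeal ∧ Ideal.inertia Gal(E/F) Q ≠ ⊥}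

/-- WP-F1: the primes of absolute degree at least two form a set of density zero. -/
def NonDegOneNull : Prop :=
  ∀ (F : Type u) [Field F] [NumberField F], HasLogDensity F (degOneSet F)ᶜ 0

/-- WP-F2: only finitely many primes ramify in a Galois extension of number fields. -/
def RamFinite : Prop :=
  ∀ (F E : Type u) [Field F] [NumberField F] [Field E] [NumberField E] [Algebra F E]
    [IsGalois F E], (ramSet F E).Finite

/-- WP-F3: the primes splitting completely in a Galois extension `E/F` have density `1/[E:F]`. -/
def SplitDensity : Prop :=
  ∀ (F E : Type u) [Field F] [NumberField F] [Field E] [NumberField E] [Algebra F E]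
    [IsGalois F E], HasLogDensity F (splitSet F E) (1 / (Module.finrank F E : ℝ))

/-- WP-F4: the primes whose decomposition groups lie in a normal subgroup `H'` have density
`1/[G:H']`. -/
def DecompDensity : Prop :=
  ∀ (F L : Type u) [Field F] [NumberField F] [Field L] [NumberField L] [Algebra F L]
    [IsGalois F L] (H' : Subgroup Gal(L/F)) [H'.Normal],
    HasLogDensity F (decompSet F L H') (1 / (H'.index : ℝ))

/-- WP-F5: in a cyclic extension the inert primes have positive density. -/
def InertDensity : Prop :=
  ∀ (F L : Type u) [Field F] [NumberField F] [Field L] [NumberField L] [Algebra F L]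
    [IsGalois F L] [IsCyclic Gal(L/F)],
    HasLogDensity F (inertSet F L)
      (∏ p ∈ (Nat.card Gal(L/F)).primeFactors, (1 - 1 / (p : ℝ)))

/-- WP-F6: Frobenius density theorem, existence form, for Galois number fields over `ℚ`:
some generator of the cyclic group generated by `g` is an arithmetic Frobenius at an
unramified prime above a rational prime outside `S`. -/
def FrobGenerator : Prop :=
  ∀ (L : Type u) [Field L] [NumberField L] [IsGalois ℚ L] (g : Gal(L/ℚ)) (S : Finset ℕ),
    ∃ (p : ℕ) (Q : Ideal (𝓞 L)) (k : ℕ), p.Prime ∧ p ∉ S ∧ Q.IsPrime ∧ (p : 𝓞 L) ∈ Q ∧
      Ideal.inertia Gal(L/ℚ) Q = ⊥ ∧ k.Coprime (orderOf g) ∧ IsArithFrobAt ℤ (g ^ k) Q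

end Fermat.Agent.Lib.FrobDensity
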