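import Mathlib
import Fermat.Agent.Lib.FrobDensity.Specs
import Fermat.Agent.Lib.FrobeniusExistsAt
import Fermat.Agent.Lib.CFT.S14.BridgeDefs

/-!
helper54.  FROBDENS F7: from the Frobenius density theorem for Galois number fields
(`FrobGenerator`) to its form in the language of valuation subrings of `ℚ̄` (`FrobGeneratorDense`,
`FrobPowerDense`).
-/

set_option autoImplicit false

namespace Fermat.Agent.Lib.FrobDensity

open NumberField
open scoped Pointwise

namespace Bridge

variable (M : IntermediateField ℚ Qbar)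

/-- The embedding of the ring of integers of `M` into `ℚ̄`. -/
noncomputable def toQbar : 𝓞 M →+* Qbar := (algebraMap M Qbar).comp (algebraMap (𝓞 M) M)

theorem toQbar_apply (x : 𝓞 M) : toQbar M x = ((x : M) : Qbar) := rfl

theorem toQbar_injective : Function.Injective (toQbar M) :=
  (algebraMap M Qbar).injective.comp RingOfIntegers.coe_injective

theorem isIntegral_toQbar (x : 𝓞 M) : IsIntegral ℤ (toQbar M x) :=
  (RingOfIntegers.isIntegral_coe x).algebraMap

/-- Chevalley: a valuation subring of `ℚ̄` cutting out a given maximal ideal of `𝓞 M`. -/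
theorem exists_valuationSubring_cut (Q : Ideal (𝓞 M)) [hQ : Q.IsMaximal] :
    ∃ A : ValuationSubring Qbar, ∀ x : 𝓞 M, toQbar M x ∈ A.nonunits ↔ x ∈ Q := by
  let e : 𝓞 M ≃+* (toQbar M).range :=
    RingEquiv.ofBijective (toQbar M).rangeRestrict
      ⟨fun x y h => toQbar_injective M (congrArg (fun z : (toQbar M).range => (z : Qbar)) h),
        (toQbar M).rangeRestrict_surjective⟩
  have hmax : (Q.map e).IsMaximal := Ideal.map_isMaximal_of_equiv e
  obtain ⟨A, -, hA⟩ := exists_valuationSubring_of_isMaximal (toQbar M).range (Q.map e)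
  refine ⟨A, fun x => ?_⟩
  have h1 := hA (e x)
  have h2 : ((e x : (toQbar M).range) : Qbar) = toQbar M x := rfl
  rw [h2] at h1
  rw [← h1]
  constructor
  · intro hx
    obtain ⟨y, hy, hxy⟩ := (Ideal.mem_map_of_equiv e _).mp hx
    rwa [← e.injective hxy]
  · intro hx
    exact Ideal.mem_map_of_mem _ hx

end Bridge


/-- **FROBDENS F7.** The Frobenius density theorem for Galois number fields implies its
(two-sided) form for valuation subrings of `ℚ̄`. -/
theorem frobGeneratorDense_of (h : FrobGenerator.{0}) : FrobGeneratorDense := by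
  intro L hL g bad
  have hQG : IsGalois ℚ Qbar := isGalois_algebraicClosure_rat
  let M : IntermediateField ℚ Qbar := IntermediateField.normalClosure ℚ L Qbar
  have hfd : FiniteDimensional ℚ M := by
    have h0 := _root_.normalClosure.is_finiteDimensional ℚ L Qbar
    exact h0
  have hnormal : Normal ℚ M := by
    have h0 := _root_.normalClosure.normal ℚ L Qbar
    exact h0
  have hgal : IsGalois ℚ M := ⟨⟩
  have hnf : NumberField M := ⟨⟩
  have hLM : L ≤ M := IntermediateField.le_normalClosure L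
  obtain ⟨p, Q, k, hp, hpbad, hQprime, hpQ, hinert, hk, hfrob⟩ :=
    h M (AlgEquiv.restrictNormalHom M g) bad
  -- `Q` is maximal
  have hQ0 : Q ≠ ⊥ := by
    intro h0
    rw [h0, Ideal.mem_bot] at hpQ
    exact hp.ne_zero (by exact_mod_cast hpQ)
  have hQmax : Q.IsMaximal := hQprime.isMaximal hQ0
  obtain ⟨A, hA⟩ := Bridge.exists_valuationSubring_cut M Q
  have hAp : A.LiesOverPrime p := by
    show (p : Qbar) ∈ A.nonunits
    have := (hA (p : 𝓞 M)).mpr hpQ
    rwa [map_natCast] at this
  obtain ⟨σ, hσF, hσ⟩ := exists_isFrobeniusAt_of_liesOverPrime hp A hAp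
  -- compatibility of restriction with the embedding
  have hcomm : ∀ (τ : Qbar ≃ₐ[ℚ] Qbar) (x : 𝓞 M),
      τ (Bridge.toQbar M x) = Bridge.toQbar M ((AlgEquiv.restrictNormalHom M τ) • x) := by
    intro τ x
    exact (AlgEquiv.restrictNormal_commutes τ M (x : M)).symm
  -- the residue cardinality
  have hunder : Q.under ℤ = Ideal.span {(p : ℤ)} := by
    have hmax : (Ideal.span {(p : ℤ)}).IsMaximal :=
      PrincipalIdealRing.isMaximal_of_irreducible (Nat.prime_iff_prime_int.mp hp).irreducible
    have hle : Ideal.span {(p : ℤ)} ≤ Q.under ℤ := by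
      rw [Ideal.span_singleton_le_iff_mem, Ideal.under_def, Ideal.mem_comap]
      simpa using hpQ
    have hne : Q.under ℤ ≠ ⊤ := (Ideal.comap_isPrime _ _).ne_top
    exact (hmax.eq_of_le hne hle).symm
  have hcard : Nat.card (ℤ ⧸ Q.under ℤ) = p := by
    rw [hunder, Nat.card_congr (Int.quotientSpanNatEquivZMod p).toEquiv, Nat.card_zmod]
  -- the restriction of `σ` is an arithmetic Frobenius at `Q`
  have hσM : IsArithFrobAt ℤ (AlgEquiv.restrictNormalHom M σ) Q := by
    intro x
    rw [hcard, ← hA, map_sub, map_pow]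
    have h1 : Bridge.toQbar M ((MulSemiringAction.toAlgHom ℤ (𝓞 M)
        (AlgEquiv.restrictNormalHom M σ)) x) = σ (Bridge.toQbar M x) := (hcomm σ x).symm
    rw [h1]
    exact hσ _ (Bridge.isIntegral_toQbar M x)
  have hmem := IsArithFrobAt.mul_inv_mem_inertia hσM hfrob
  rw [hinert, Subgroup.mem_bot] at hmem
  have hσMeq : AlgEquiv.restrictNormalHom M σ = (AlgEquiv.restrictNormalHom M g) ^ k :=
    mul_inv_eq_one.mp hmem
  obtain ⟨k', hk'⟩ := exists_pow_eq_self_of_coprime hk
  -- two automorphisms of `ℚ̄` with the same restriction to `M` agree on `L`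
  have key : ∀ τ₁ τ₂ : Qbar ≃ₐ[ℚ] Qbar,
      AlgEquiv.restrictNormalHom M τ₁ = AlgEquiv.restrictNormalHom M τ₂ →
        ∀ x ∈ L, τ₁ x = τ₂ x := by
    intro τ₁ τ₂ h1 x hx
    have hxM : x ∈ M := hLM hx
    have h2 := AlgEquiv.restrictNormal_commutes τ₁ M ⟨x, hxM⟩
    have h3 := AlgEquiv.restrictNormal_commutes τ₂ M ⟨x, hxM⟩
    have h4 : τ₁.restrictNormal M = τ₂.restrictNormal M := h1
    rw [h4] at h2
    exact h2.symm.trans h3
  refine ⟨p, hp, hpbad, A, hAp, σ, hσF, ⟨k', key _ _ ?_⟩, ⟨k, key _ _ ?_⟩⟩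
  · rw [map_pow, hσMeq, hk']
  · rw [map_pow, hσMeq]

/-- The one-sided form. -/
theorem frobPowerDense_of (h : FrobGenerator.{0}) : FrobPowerDense :=
  frobPowerDense_of_frobGeneratorDense (frobGeneratorDense_of h)

end Fermat.Agent.Lib.FrobDensity
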