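/-
helper9.  Frobenius density theorem (existence form), work package F4 (`Decomp.lean`).

For a Galois extension `L/F` of number fields with group `G` and a normal subgroup `H'` of `G`,
a prime `q` of `F` splits completely in the fixed field `L^{H'}` if and only if all the
decomposition groups of the primes of `L` above `q` are contained in `H'`
(`decompSet_eq_splitSet`).  Counting: if `Q` is a prime of `L` above `q` with decomposition group
`D`, then `#{primes of L^{H'} above q} * [H' : D ⊓ H'] = [G : D]`
(`ncard_primesOver_fixedField_mul_relIndex`, from Mathlib's tower formula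
`Ideal.ncard_primesOver_mul_ncard_primesOver` and orbit-stabilizer), while
`[L^{H'} : F] = [G : H']`.

Consequently `SplitDensity → DecompDensity` (`decompDensity_of`).
-/
import Mathlib
import Fermat.Agent.Lib.FrobDensity.Specs

set_option autoImplicit false

namespace Fermat.Agent.Lib.FrobDensity

open NumberField IsDedekindDomain
open scoped Pointwise

universe u

section Decomp

variable (F L : Type u) [Field F] [NumberField F] [Field L] [NumberField L] [Algebra F L]
  [IsGalois F L] (H' : Subgroup Gal(L/F))

/-- `H'` is a Galois group for `L / L^{H'}`. -/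
instance isGaloisGroup_fixedField :
    IsGaloisGroup H' (IntermediateField.fixedField H') L :=
  IsGaloisGroup.subgroup Gal(L/F) F L H'

instance isGaloisGroup_fixedField_int :
    IsGaloisGroup H' (𝓞 (IntermediateField.fixedField H')) (𝓞 L) :=
  IsGaloisGroup.of_isFractionRing H' (𝓞 (IntermediateField.fixedField H')) (𝓞 L)
    (IntermediateField.fixedField H') L

omit [NumberField F] [IsGalois F L] [NumberField L] in
/-- The decomposition group of `Q` in the subgroup `H'` is the intersection with `H'` of the
decomposition group in the full Galois group. -/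
theorem stabilizer_subgroup_eq (Q : Ideal (𝓞 L)) :
    MulAction.stabilizer H' Q = (MulAction.stabilizer Gal(L/F) Q).subgroupOf H' := by
  ext h
  simp only [MulAction.mem_stabilizer_iff, Subgroup.mem_subgroupOf]
  rfl

variable [H'.Normal]

/-- Counting the primes of the fixed field of `H'` above `q` through the decomposition group `D`
of a prime `Q` of `L` above `q`: their number times `[H' : D ⊓ H']` is `[G : D]`. -/
theorem ncard_primesOver_fixedField_mul_relIndex (q : Ideal (𝓞 F)) [q.IsPrime]
    (Q : Ideal (𝓞 L)) [Q.IsPrime] [Q.LiesOver q] :
    (q.primesOver (𝓞 (IntermediateField.fixedField H'))).ncard *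
        (MulAction.stabilizer Gal(L/F) Q).relIndex H'
      = (MulAction.stabilizer Gal(L/F) Q).index := by
  set E := IntermediateField.fixedField H' with hE
  let P : Ideal (𝓞 E) := Q.under (𝓞 E)
  have hPprime : P.IsPrime := inferInstance
  have hQP : Q.LiesOver P := inferInstance
  have hPq : P.LiesOver q := inferInstance
  have h1 := Ideal.ncard_primesOver_mul_ncard_primesOver (p := q) P Gal(E/F) (𝓞 L) Gal(L/F)
  have h2 : (q.primesOver (𝓞 L)).ncard = (MulAction.stabilizer Gal(L/F) Q).index := by
    rw [← Algebra.IsInvariant.orbit_eq_primesOver (𝓞 F) (𝓞 L) Gal(L/F) q Q,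
      MulAction.index_stabilizer]
  have h3 : (P.primesOver (𝓞 L)).ncard = (MulAction.stabilizer Gal(L/F) Q).relIndex H' := by
    have h4 : MulAction.orbit H' Q = P.primesOver (𝓞 L) :=
      Algebra.IsInvariant.orbit_eq_primesOver (𝓞 E) (𝓞 L) H' P Q
    rw [← h4, ← MulAction.index_stabilizer H' Q, stabilizer_subgroup_eq, Subgroup.relIndex]
  rw [← h3, h1, h2]

omit [H'.Normal] in
/-- The degree of the fixed field of `H'` over the base is the index of `H'`. -/
theorem finrank_fixedField_eq_index :
    Module.finrank F (IntermediateField.fixedField H') = H'.index := by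
  rw [IntermediateField.finrank_eq_fixingSubgroup_index,
    IntermediateField.fixingSubgroup_fixedField]

/-- **WP-F4 (a)**: the primes all of whose decomposition groups lie in the normal subgroup `H'`
are exactly the primes that split completely in the fixed field of `H'`. -/
theorem decompSet_eq_splitSet :
    decompSet F L H' = splitSet F (IntermediateField.fixedField H') := by
  ext q
  simp only [decompSet, splitSet, Set.mem_ofPred_eq]
  rw [finrank_fixedField_eq_index]
  constructor
  · intro h
    obtain ⟨⟨Q, hQ1, hQ2⟩⟩ : Nonempty (q.asIdeal.primesOver (𝓞 L)) := inferInstance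
    have hD := h Q hQ1 hQ2
    have key := ncard_primesOver_fixedField_mul_relIndex F L H' q.asIdeal Q
    have h1 := Subgroup.relIndex_mul_index hD
    have h0 : (MulAction.stabilizer Gal(L/F) Q).relIndex H' ≠ 0 := by
      intro h0
      rw [h0, zero_mul] at h1
      exact Subgroup.index_ne_zero_of_finite h1.symm
    have h2 : (q.asIdeal.primesOver (𝓞 (IntermediateField.fixedField H'))).ncard *
        (MulAction.stabilizer Gal(L/F) Q).relIndex H'
        = H'.index * (MulAction.stabilizer Gal(L/F) Q).relIndex H' := by
      rw [key, ← h1, mul_comm]
    exact Nat.eq_of_mul_eq_mul_right (Nat.pos_of_ne_zero h0) h2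
  · intro h Q hQ1 hQ2
    have key := ncard_primesOver_fixedField_mul_relIndex F L H' q.asIdeal Q
    set D := MulAction.stabilizer Gal(L/F) Q with hD
    have h1 : (D ⊓ H').relIndex H' * H'.index = (D ⊓ H').index :=
      Subgroup.relIndex_mul_index inf_le_right
    rw [Subgroup.inf_relIndex_right] at h1
    have h2 : (D ⊓ H').relIndex D * D.index = (D ⊓ H').index :=
      Subgroup.relIndex_mul_index inf_le_left
    have h3 : (D ⊓ H').relIndex D * D.index = 1 * D.index := by
      rw [h2, ← h1, one_mul, ← key, h, mul_comm]
    have h4 : (D ⊓ H').relIndex D = 1 :=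
      Nat.eq_of_mul_eq_mul_right (Nat.pos_of_ne_zero Subgroup.index_ne_zero_of_finite) h3
    exact (Subgroup.relIndex_eq_one.mp h4).trans inf_le_right

end Decomp

/-- **WP-F4 (b)**: the density of the primes with decomposition groups in a normal subgroup. -/
theorem decompDensity_of (h : SplitDensity.{u}) : DecompDensity.{u} := by
  intro F L _ _ _ _ _ _ H' _
  have h1 := h F (IntermediateField.fixedField H')
  rw [finrank_fixedField_eq_index, ← decompSet_eq_splitSet] at h1
  exact h1

end Fermat.Agent.Lib.FrobDensity
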