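/-
helper62.  Frobenius density theorem (existence form): elementary calculus of logarithmic densities.
-/
import Mathlib
import Fermat.Agent.Lib.FrobDensity.Defs
import Fermat.Agent.Lib.CFT.Unram.EulerProduct

set_option autoImplicit false

namespace Fermat.Agent.Lib.FrobDensity

open NumberField IsDedekindDomain Filter Topology
open Fermat.Agent.Lib.CFT.Unram

variable (K : Type*) [Field K] [NumberField K]

theorem pterm_nonneg (s : ℝ) (p : HeightOneSpectrum (𝓞 K)) : 0 ≤ pterm K s p :=
  Real.rpow_nonneg (Nat.cast_nonneg _) _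

theorem pterm_pos (s : ℝ) (p : HeightOneSpectrum (𝓞 K)) : 0 < pterm K s p :=
  EulerProduct.absNorm_prime_rpow_pos K p s

theorem pterm_le_one {s : ℝ} (hs : 0 < s) (p : HeightOneSpectrum (𝓞 K)) : pterm K s p ≤ 1 :=
  (EulerProduct.absNorm_prime_rpow_lt_one K p hs).le

theorem summable_pterm {s : ℝ} (hs : 1 < s) : Summable (pterm K s) := by
  have h := EulerProduct.summable_absNorm_rpow K hs
  have hinj : Function.Injective (fun p : HeightOneSpectrum (𝓞 K) => p.asIdeal) :=
    fun p q h => HeightOneSpectrum.ext h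
  exact h.comp_injective hinj

theorem summable_indicator_pterm {s : ℝ} (hs : 1 < s) (A : Set (HeightOneSpectrum (𝓞 K))) :
    Summable (A.indicator (pterm K s)) :=
  (summable_pterm K hs).indicator A

theorem primeSum_nonneg (A : Set (HeightOneSpectrum (𝓞 K))) (s : ℝ) : 0 ≤ primeSum K A s :=
  tsum_nonneg fun p => Set.indicator_nonneg (fun p _ => pterm_nonneg K s p) p

theorem primeSum_mono {s : ℝ} (hs : 1 < s) {A B : Set (HeightOneSpectrum (𝓞 K))} (h : A ⊆ B) :
    primeSum K A s ≤ primeSum K B s := by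
  refine (summable_indicator_pterm K hs A).tsum_le_tsum (fun p => ?_) (summable_indicator_pterm K hs B)
  exact Set.indicator_le_indicator_of_subset h (fun p => pterm_nonneg K s p) p

theorem primeSum_union {s : ℝ} (hs : 1 < s) {A B : Set (HeightOneSpectrum (𝓞 K))}
    (h : Disjoint A B) : primeSum K (A ∪ B) s = primeSum K A s + primeSum K B s := by
  unfold primeSum
  rw [← (summable_indicator_pterm K hs A).tsum_add (summable_indicator_pterm K hs B)]
  refine tsum_congr fun p => ?_
  rw [Set.indicator_union_of_disjoint h]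

theorem primeSum_diff {s : ℝ} (hs : 1 < s) {A B : Set (HeightOneSpectrum (𝓞 K))} (h : B ⊆ A) :
    primeSum K (A \ B) s = primeSum K A s - primeSum K B s := by
  have h1 : A = (A \ B) ∪ B := (Set.sdiff_union_of_subset h).symm
  have h2 : Disjoint (A \ B) B := Set.disjoint_sdiff_left
  have := primeSum_union K hs h2
  rw [← h1] at this
  linarith

theorem primeSum_empty (s : ℝ) : primeSum K ∅ s = 0 := by
  simp [primeSum]

theorem primeSum_finite_le {s : ℝ} (hs : 0 < s) {A : Set (HeightOneSpectrum (𝓞 K))}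
    (hA : A.Finite) : primeSum K A s ≤ hA.toFinset.card := by
  classical
  unfold primeSum
  rw [tsum_eq_sum (s := hA.toFinset)]
  · calc ∑ p ∈ hA.toFinset, A.indicator (pterm K s) p ≤ ∑ _p ∈ hA.toFinset, (1 : ℝ) := by
          refine Finset.sum_le_sum fun p hp => ?_
          rw [Set.indicator_of_mem (hA.mem_toFinset.1 hp)]
          exact pterm_le_one K hs p
      _ = hA.toFinset.card := by simp
  · intro p hp
    rw [Set.indicator_of_notMem]
    simpa using hp

variable {K}

theorem HasLogDensity.of_finite {A : Set (HeightOneSpectrum (𝓞 K))} (hA : A.Finite) :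
    HasLogDensity K A 0 := by
  refine ⟨hA.toFinset.card, fun s hs _ => ?_⟩
  rw [zero_mul, sub_zero, abs_of_nonneg (primeSum_nonneg K A s)]
  exact primeSum_finite_le K (by linarith) hA

theorem HasLogDensity.union {A B : Set (HeightOneSpectrum (𝓞 K))} {a b : ℝ}
    (hA : HasLogDensity K A a) (hB : HasLogDensity K B b) (h : Disjoint A B) :
    HasLogDensity K (A ∪ B) (a + b) := by
  obtain ⟨C₁, h₁⟩ := hA
  obtain ⟨C₂, h₂⟩ := hB
  refine ⟨C₁ + C₂, fun s hs hs2 => ?_⟩
  rw [primeSum_union K hs h]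
  have e : primeSum K A s + primeSum K B s - (a + b) * logPole s =
      (primeSum K A s - a * logPole s) + (primeSum K B s - b * logPole s) := by ring
  rw [e]
  exact (abs_add_le _ _).trans (add_le_add (h₁ s hs hs2) (h₂ s hs hs2))

theorem HasLogDensity.diff {A B : Set (HeightOneSpectrum (𝓞 K))} {a b : ℝ}
    (hA : HasLogDensity K A a) (hB : HasLogDensity K B b) (h : B ⊆ A) :
    HasLogDensity K (A \ B) (a - b) := by
  obtain ⟨C₁, h₁⟩ := hA
  obtain ⟨C₂, h₂⟩ := hB
  refine ⟨C₁ + C₂, fun s hs hs2 => ?_⟩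
  rw [primeSum_diff K hs h]
  have e : primeSum K A s - primeSum K B s - (a - b) * logPole s =
      (primeSum K A s - a * logPole s) - (primeSum K B s - b * logPole s) := by ring
  rw [e]
  exact (abs_sub _ _).trans (add_le_add (h₁ s hs hs2) (h₂ s hs hs2))

/-- Removing a set of density `0` does not change the density. -/
theorem HasLogDensity.diff_null {A B : Set (HeightOneSpectrum (𝓞 K))} {a : ℝ}
    (hA : HasLogDensity K A a) (hB : HasLogDensity K B 0) :
    HasLogDensity K (A \ B) a := by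
  obtain ⟨C₁, h₁⟩ := hA
  obtain ⟨C₂, h₂⟩ := hB
  refine ⟨C₁ + C₂, fun s hs hs2 => ?_⟩
  have e1 : A \ B = A \ (A ∩ B) := by
    ext p
    simp
  rw [e1, primeSum_diff K hs Set.inter_subset_left]
  have h3 : primeSum K (A ∩ B) s ≤ C₂ := by
    have := h₂ s hs hs2
    rw [zero_mul, sub_zero, abs_of_nonneg (primeSum_nonneg K B s)] at this
    exact (primeSum_mono K hs Set.inter_subset_right).trans this
  have h4 := primeSum_nonneg K (A ∩ B) s
  have h5 := abs_le.1 (h₁ s hs hs2)
  rw [abs_le]
  constructor <;> linarith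

theorem HasLogDensity.mono_null {A B : Set (HeightOneSpectrum (𝓞 K))}
    (hB : HasLogDensity K B 0) (h : A ⊆ B) : HasLogDensity K A 0 := by
  obtain ⟨C₂, h₂⟩ := hB
  refine ⟨C₂, fun s hs hs2 => ?_⟩
  have := h₂ s hs hs2
  rw [zero_mul, sub_zero, abs_of_nonneg (primeSum_nonneg K _ s)] at this ⊢
  exact (primeSum_mono K hs h).trans this

theorem tendsto_logPole : Tendsto logPole (𝓝[>] (1 : ℝ)) atTop := by
  unfold logPole
  have h1 : Tendsto (fun s : ℝ => s - 1) (𝓝[>] (1 : ℝ)) (𝓝[>] 0) := by
    have : Tendsto (fun s : ℝ => s - 1) (𝓝 (1 : ℝ)) (𝓝 0) := by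
      have hc : Continuous fun s : ℝ => s - 1 := by fun_prop
      have h := hc.tendsto 1
      simpa using h
    refine tendsto_nhdsWithin_iff.2 ⟨this.mono_left nhdsWithin_le_nhds, ?_⟩
    filter_upwards [self_mem_nhdsWithin] with s hs
    simpa using hs
  have h2 : Tendsto (fun s : ℝ => 1 / (s - 1)) (𝓝[>] (1 : ℝ)) atTop := by
    have h := h1.inv_tendsto_nhdsGT_zero
    refine h.congr fun s => ?_
    simp [one_div]
  exact Real.tendsto_log_atTop.comp h2

/-- A set of primes of positive logarithmic density is infinite. -/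
theorem HasLogDensity.infinite {A : Set (HeightOneSpectrum (𝓞 K))} {c : ℝ}
    (hA : HasLogDensity K A c) (hc : 0 < c) : A.Infinite := by
  intro hfin
  obtain ⟨C, hC⟩ := hA
  have h1 : ∀ᶠ s in 𝓝[>] (1 : ℝ), (C + hfin.toFinset.card + 1) / c < logPole s :=
    tendsto_logPole.eventually_gt_atTop _
  have h2 : ∀ᶠ s in 𝓝[>] (1 : ℝ), s ≤ 2 := by
    have : Set.Ioc (1 : ℝ) 2 ∈ 𝓝[>] (1 : ℝ) := Ioc_mem_nhdsGT (by norm_num)
    filter_upwards [this] with s hs using hs.2
  obtain ⟨s, ⟨hs1, hs2⟩, hs3⟩ := ((h1.and h2).and self_mem_nhdsWithin).exists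
  have hs3' : (1 : ℝ) < s := hs3
  have h3 := abs_le.1 (hC s hs3' hs2)
  have h4 := primeSum_finite_le K (by linarith : (0 : ℝ) < s) hfin
  rw [div_lt_iff₀ hc] at hs1
  nlinarith [h3.1, h3.2]

end Fermat.Agent.Lib.FrobDensity
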