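/-
helper45 (FROBDENS F6).  Frobenius density theorem, existence form, for Galois number fields
over `ℚ`: for `g ∈ Gal(L/ℚ)` some generator `g ^ k` of `⟨g⟩` is an arithmetic Frobenius at an
unramified prime above a rational prime outside a given finite set.

Proof: `F := L^{⟨g⟩}`; `L/F` is cyclic with group `⟨g⟩`; the inert primes of `F` have positive
density (`InertDensity`), the primes of degree `≥ 2` have density zero (`NonDegOneNull`) and only
finitely many primes are ramified over `ℚ` or lie over `S`; an inert, unramified prime `q` of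
degree one with prime `Q` above has a Frobenius which generates `Gal(L/F) = ⟨g⟩` and is an
arithmetic Frobenius over `ℤ` as well since `𝓞 F / q = 𝔽_p`.
-/
import Mathlib
import Fermat.Agent.Lib.FrobDensity.Specs
import Fermat.Agent.Lib.FrobDensity.Basic
import Fermat.Agent.Lib.CFT.Unram.ArtinMap

set_option autoImplicit false
set_option linter.unusedSectionVars false

namespace Fermat.Agent.Lib.FrobDensity

open NumberField IsDedekindDomain
open scoped Pointwise

namespace FrobGen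

/-! ### Finiteness of ramification (general universes) -/

section Ram

variable (F E : Type*) [Field F] [NumberField F] [Field E] [NumberField E] [Algebra F E]

/-- A nontrivial automorphism moves some algebraic integer. -/
theorem exists_smul_ne {σ : Gal(E/F)} (hσ : σ ≠ 1) : ∃ y : 𝓞 E, σ • y ≠ y := by
  by_contra h
  push Not at h
  apply hσ
  ext x
  obtain ⟨a, b, hb, rfl⟩ := IsFractionRing.div_surjective (A := 𝓞 E) x
  have ha' : σ (algebraMap (𝓞 E) E a) = algebraMap (𝓞 E) E a :=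
    congrArg (fun z : 𝓞 E => (z : E)) (h a)
  have hb' : σ (algebraMap (𝓞 E) E b) = algebraMap (𝓞 E) E b :=
    congrArg (fun z : 𝓞 E => (z : E)) (h b)
  rw [map_div₀, ha', hb']
  rfl

/-- Only finitely many nonzero primes contain a given nonzero element. -/
theorem finite_setOf_mem {R : Type*} [CommRing R] [IsDedekindDomain R] {δ : R} (hδ : δ ≠ 0) :
    {Q : HeightOneSpectrum R | δ ∈ Q.asIdeal}.Finite := by
  have h0 : Ideal.span {δ} ≠ 0 := by
    rw [Ne, Ideal.zero_eq_bot, Ideal.span_singleton_eq_bot]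
    exact hδ
  refine (Ideal.finite_factors h0).subset ?_
  intro Q hQ
  rw [Set.mem_ofPred_eq] at hQ ⊢
  exact Ideal.dvd_span_singleton.2 hQ

/-- Only finitely many primes of `E` have a nontrivial inertia group in `Gal(E/F)`. -/
theorem finite_setOf_inertia_ne_bot [FiniteDimensional F E] :
    {Q : HeightOneSpectrum (𝓞 E) | Ideal.inertia Gal(E/F) Q.asIdeal ≠ ⊥}.Finite := by
  classical
  choose! y hy using fun (σ : Gal(E/F)) (hσ : σ ≠ 1) => exists_smul_ne F E hσ
  have hfin : (⋃ σ ∈ {σ : Gal(E/F) | σ ≠ 1},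
      {Q : HeightOneSpectrum (𝓞 E) | σ • y σ - y σ ∈ Q.asIdeal}).Finite := by
    refine Set.Finite.biUnion (Set.toFinite _) ?_
    intro σ hσ
    exact finite_setOf_mem (sub_ne_zero.2 (hy σ hσ))
  refine hfin.subset ?_
  intro Q hQ
  rw [Set.mem_ofPred_eq, Ne, Subgroup.eq_bot_iff_forall] at hQ
  push Not at hQ
  obtain ⟨σ, hσ, hσ1⟩ := hQ
  rw [Set.mem_iUnion₂]
  exact ⟨σ, hσ1, hσ (y σ)⟩

end Ram

/-! ### A Frobenius at an inert unramified prime generates the Galois group -/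

section Generator

open Fermat.Agent.Lib.CFT.Unram

variable {K L : Type*} [Field K] [NumberField K] [Field L] [NumberField L] [Algebra K L]
  [IsGalois K L]

/-- At a prime `Q` with decomposition group everything and trivial inertia group, the degree of
the extension is the inertia degree. -/
theorem natCard_gal_eq_inertiaDeg {Q : Ideal (𝓞 L)} [Q.IsPrime] (hQ : Q ≠ ⊥)
    (hD : MulAction.stabilizer Gal(L/K) Q = ⊤) (hI : Ideal.inertia Gal(L/K) Q = ⊥) :
    Nat.card Gal(L/K) = Q.inertiaDeg (𝓞 K) := by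
  set 𝔮 : Ideal (𝓞 K) := Q.under (𝓞 K) with h𝔮
  have hlo : Q.LiesOver 𝔮 := ⟨rfl⟩
  have h𝔮0 : 𝔮 ≠ ⊥ := ArtinMap.under_ne_bot hQ
  have h𝔮p : 𝔮.IsPrime := Ideal.IsPrime.under (𝓞 K) Q
  have : 𝔮.IsMaximal := Ideal.IsPrime.isMaximal h𝔮p h𝔮0
  have : Finite (𝓞 K ⧸ 𝔮) := ArtinMap.finite_quotient K 𝔮 h𝔮0
  have : PerfectField 𝔮.ResidueField := inferInstance
  have h := Ideal.card_stabilizer_eq_card_inertia_mul_finrank (G := Gal(L/K)) 𝔮 Q
  rw [hD, hI, Subgroup.card_top, Subgroup.card_bot, one_mul] at h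
  exact h

/-- A Frobenius at a prime `Q` with decomposition group everything and trivial inertia group
generates `Gal(L/K)`. -/
theorem zpowers_frob_eq_top {Q : Ideal (𝓞 L)} [Q.IsPrime] (hQ : Q ≠ ⊥)
    (hD : MulAction.stabilizer Gal(L/K) Q = ⊤) (hI : Ideal.inertia Gal(L/K) Q = ⊥)
    {σ : Gal(L/K)} (hσ : IsArithFrobAt (𝓞 K) σ Q) : Subgroup.zpowers σ = ⊤ := by
  set 𝔮 : Ideal (𝓞 K) := Q.under (𝓞 K) with h𝔮
  have hlo : Q.LiesOver 𝔮 := ⟨rfl⟩
  have h𝔮0 : 𝔮 ≠ ⊥ := ArtinMap.under_ne_bot hQ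
  have h𝔮p : 𝔮.IsPrime := Ideal.IsPrime.under (𝓞 K) Q
  have hQm : Q.IsMaximal := Ideal.IsPrime.isMaximal inferInstance hQ
  have hfinL : Finite (𝓞 L ⧸ Q) := ArtinMap.finite_quotient L Q hQ
  have hfinK : Finite (𝓞 K ⧸ 𝔮) := ArtinMap.finite_quotient K 𝔮 h𝔮0
  have hntK : Nontrivial (𝓞 K ⧸ 𝔮) := Ideal.Quotient.nontrivial_iff.mpr h𝔮p.ne_top
  let _ : Field (𝓞 L ⧸ Q) := Ideal.Quotient.field Q
  have hq : 1 < Nat.card (𝓞 K ⧸ 𝔮) := Finite.one_lt_card
  set f := Q.inertiaDeg (𝓞 K) with hf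
  have hfpos : 0 < f := Ideal.inertiaDeg_pos Q (𝓞 K)
  have hcard : Nat.card Gal(L/K) = f := natCard_gal_eq_inertiaDeg hQ hD hI
  -- the order of `σ`
  have h1 : σ ^ f = 1 := ArtinMap.frob_pow_inertiaDeg hQ hI hσ
  set m := orderOf σ with hm
  have hmpos : 0 < m := orderOf_pos σ
  have hmf : m ∣ f := orderOf_dvd_of_pow_eq_one h1
  have hpow : ∀ x : 𝓞 L ⧸ Q, x ^ (Nat.card (𝓞 K ⧸ 𝔮) ^ m) = x := by
    intro x
    obtain ⟨x, rfl⟩ := Ideal.Quotient.mk_surjective x
    have := ArtinMap.frob_pow hσ m x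
    rw [hm, pow_orderOf_eq_one, one_smul] at this
    exact this.symm
  have hle := ArtinMap.natCard_le_of_pow_eq (Nat.one_lt_pow hmpos.ne' hq) hpow
  rw [ArtinMap.natCard_quotient Q 𝔮 h𝔮0] at hle
  have hfm : f ≤ m := (Nat.pow_le_pow_iff_right hq).1 hle
  have hmeq : m = f := le_antisymm (Nat.le_of_dvd hfpos hmf) hfm
  rw [← Subgroup.card_eq_iff_eq_top, Nat.card_zpowers, ← hm, hmeq, hcard]

end Generator

/-! ### From an intermediate field down to `ℚ` -/

section Tower

variable {L : Type*} [Field L] [NumberField L] [IsGalois ℚ L] (F : IntermediateField ℚ L)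

lemma restrictScalars_smul (τ : Gal(L/F)) (x : 𝓞 L) :
    (τ.restrictScalars ℚ : Gal(L/ℚ)) • x = τ • x := rfl

/-- Trivial inertia over `ℚ` implies trivial inertia over an intermediate field. -/
theorem inertia_eq_bot_of_inertia_rat_eq_bot {Q : Ideal (𝓞 L)}
    (h : Ideal.inertia Gal(L/ℚ) Q = ⊥) : Ideal.inertia Gal(L/F) Q = ⊥ := by
  rw [Subgroup.eq_bot_iff_forall]
  intro τ hτ
  have h1 : (τ.restrictScalars ℚ : Gal(L/ℚ)) ∈ Ideal.inertia Gal(L/ℚ) Q := by
    intro x
    rw [restrictScalars_smul]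
    exact hτ x
  rw [h, Subgroup.mem_bot] at h1
  ext x
  have := DFunLike.congr_fun h1 x
  simpa using this

/-- A Frobenius over `𝓞 F` at a prime of degree one is a Frobenius over `ℤ`. -/
theorem isArithFrobAt_int_of_card_eq {Q : Ideal (𝓞 L)} {τ : Gal(L/F)}
    (hτ : IsArithFrobAt (𝓞 F) τ Q)
    (hcard : Nat.card (𝓞 F ⧸ Q.under (𝓞 F)) = Nat.card (ℤ ⧸ Q.under ℤ)) :
    IsArithFrobAt ℤ (τ.restrictScalars ℚ : Gal(L/ℚ)) Q := by
  intro x
  have := hτ x
  rw [hcard] at this
  exact this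

end Tower

end FrobGen

/-! ### The main theorem -/

universe u

open Fermat.Agent.Lib.CFT.Unram in
/-- **WP-F6** (without the hypothesis `RamFinite`, which is proved directly here in the needed
generality): the existence form of the Frobenius density theorem over `ℚ`. -/
theorem frobGenerator_of' (h1 : InertDensity.{u}) (h2 : NonDegOneNull.{u}) :
    FrobGenerator.{u} := by
  intro L _ _ _ g S
  classical
  set H : Subgroup Gal(L/ℚ) := Subgroup.zpowers g with hH
  set F : IntermediateField ℚ L := IntermediateField.fixedField H with hF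
  have hfix : F.fixingSubgroup = H := IntermediateField.fixingSubgroup_fixedField H
  let e : F.fixingSubgroup ≃* Gal(L/F) := IntermediateField.fixingSubgroupEquiv F
  -- `Gal(L/F)` is cyclic, generated by `g`
  have hgmem : g ∈ F.fixingSubgroup := by rw [hfix]; exact Subgroup.mem_zpowers g
  have hcyc : IsCyclic Gal(L/F) := by
    refine ⟨⟨e ⟨g, hgmem⟩, fun τ => ?_⟩⟩
    obtain ⟨⟨h, hh⟩, rfl⟩ := e.surjective τ
    have hh' : h ∈ Subgroup.zpowers g := by rw [← hH, ← hfix]; exact hh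
    obtain ⟨j, rfl⟩ := Subgroup.mem_zpowers_iff.1 hh'
    refine Subgroup.mem_zpowers_iff.2 ⟨j, ?_⟩
    rw [← map_zpow]
    congr 1
  have hn : Nat.card Gal(L/F) = orderOf g := by
    rw [← Nat.card_congr e.toEquiv, hfix, hH, Nat.card_zpowers]
  -- the density of the inert primes is positive
  have hdens := h1 F L
  set c : ℝ := ∏ p ∈ (Nat.card Gal(L/F)).primeFactors, (1 - 1 / (p : ℝ)) with hc
  have hcpos : 0 < c := by
    refine Finset.prod_pos fun p hp => ?_
    have hp2 : 2 ≤ p := (Nat.prime_of_mem_primeFactors hp).two_le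
    have : (2 : ℝ) ≤ p := by exact_mod_cast hp2
    have h3 : 1 / (p : ℝ) ≤ 1 / 2 := one_div_le_one_div_of_le (by norm_num) this
    linarith
  -- the finite sets of bad primes
  have hR : {Q : HeightOneSpectrum (𝓞 L) | Ideal.inertia Gal(L/ℚ) Q.asIdeal ≠ ⊥}.Finite :=
    FrobGen.finite_setOf_inertia_ne_bot ℚ L
  set B4 : Set (HeightOneSpectrum (𝓞 F)) :=
    (fun Q : HeightOneSpectrum (𝓞 L) => Q.under (𝓞 F)) ''
      {Q : HeightOneSpectrum (𝓞 L) | Ideal.inertia Gal(L/ℚ) Q.asIdeal ≠ ⊥} with hB4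
  have hB4fin : B4.Finite := hR.image _
  set B3 : Set (HeightOneSpectrum (𝓞 F)) :=
    ⋃ p ∈ {p : ℕ | p ∈ S ∧ p.Prime}, {q : HeightOneSpectrum (𝓞 F) | (p : 𝓞 F) ∈ q.asIdeal}
    with hB3
  have hB3fin : B3.Finite := by
    refine Set.Finite.biUnion ((S.finite_toSet).subset fun p hp => hp.1) ?_
    intro p hp
    exact FrobGen.finite_setOf_mem (Nat.cast_ne_zero.2 hp.2.ne_zero)
  have hA : HasLogDensity F ((inertSet F L \ (degOneSet F)ᶜ) \ (B3 ∪ B4)) c :=
    (hdens.diff_null (h2 F)).diff_null (HasLogDensity.of_finite (hB3fin.union hB4fin))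
  obtain ⟨q, ⟨hqI, hqD⟩, hqB⟩ := (hA.infinite hcpos).nonempty
  have hpprime : (Ideal.absNorm q.asIdeal).Prime := by
    by_contra h
    exact hqD h
  set p : ℕ := Ideal.absNorm q.asIdeal with hp
  -- a prime of `L` above `q`
  obtain ⟨⟨Q, hQp, hQq⟩⟩ := Ideal.nonempty_primesOver (S := 𝓞 L) q.asIdeal
  have hQ0 : Q ≠ ⊥ := ArtinMap.ne_bot_of_liesOver F L Q q.asIdeal q.ne_bot
  have hunder : Q.under (𝓞 F) = q.asIdeal := hQq.over.symm
  have hpq : (p : 𝓞 F) ∈ q.asIdeal := Ideal.absNorm_mem q.asIdeal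
  have hpS : p ∉ S := by
    intro hpS
    apply hqB
    left
    rw [hB3, Set.mem_iUnion₂]
    exact ⟨p, ⟨hpS, hpprime⟩, hpq⟩
  have hpQ : (p : 𝓞 L) ∈ Q := by
    have h3 : (p : 𝓞 F) ∈ Q.under (𝓞 F) := by rw [hunder]; exact hpq
    rw [Ideal.under_def, Ideal.mem_comap, map_natCast] at h3
    exact h3
  have hIQ : Ideal.inertia Gal(L/ℚ) Q = ⊥ := by
    by_contra h
    apply hqB
    right
    refine ⟨⟨Q, hQp, hQ0⟩, h, ?_⟩
    exact HeightOneSpectrum.ext hunder
  have hIF : Ideal.inertia Gal(L/F) Q = ⊥ := FrobGen.inertia_eq_bot_of_inertia_rat_eq_bot F hIQ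
  have hD : MulAction.stabilizer Gal(L/F) Q = ⊤ := hqI Q hQp hQq
  -- the Frobenius
  obtain ⟨σ, hσ⟩ := ArtinMap.exists_frob F L Q hQ0
  have hgen : Subgroup.zpowers σ = ⊤ := FrobGen.zpowers_frob_eq_top hQ0 hD hIF hσ
  set s : Gal(L/ℚ) := σ.restrictScalars ℚ with hs
  have hsH : s ∈ Subgroup.zpowers g := by
    have : s ∈ F.fixingSubgroup := (e.symm σ).2
    rw [hfix] at this
    exact this
  obtain ⟨k, hk⟩ := mem_powers_iff_mem_zpowers.2 hsH
  have hk' : g ^ k = s := hk
  -- orders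
  have hord : orderOf s = orderOf g := by
    have h5 : orderOf σ = Nat.card Gal(L/F) := by
      rw [← Nat.card_zpowers, hgen, Subgroup.card_top]
    have h6 : orderOf (e.symm σ) = orderOf σ := MulEquiv.orderOf_eq e.symm σ
    have h7 : orderOf ((e.symm σ : F.fixingSubgroup) : Gal(L/ℚ)) = orderOf (e.symm σ) :=
      Subgroup.orderOf_coe _
    have h8 : ((e.symm σ : F.fixingSubgroup) : Gal(L/ℚ)) = s := rfl
    rw [← h8, h7, h6, h5, hn]
  have hcop : k.Coprime (orderOf g) := by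
    have hpos : 0 < orderOf g := orderOf_pos g
    have h9 : orderOf (g ^ k) = orderOf g / Nat.gcd (orderOf g) k := orderOf_pow g
    rw [hk', hord] at h9
    have h10 : Nat.gcd (orderOf g) k = 1 := by
      have hdvd : Nat.gcd (orderOf g) k ∣ orderOf g := Nat.gcd_dvd_left _ _
      have h11 := Nat.div_mul_cancel hdvd
      rw [← h9] at h11
      exact Nat.eq_of_mul_eq_mul_left hpos (h11.trans (mul_one _).symm)
    rw [Nat.coprime_comm]
    exact h10
  -- the Frobenius over `ℤ`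
  have hfrob : IsArithFrobAt ℤ (g ^ k) Q := by
    rw [hk']
    apply FrobGen.isArithFrobAt_int_of_card_eq F hσ
    have hc1 : Nat.card (𝓞 F ⧸ Q.under (𝓞 F)) = p := by
      rw [hunder, hp, Ideal.absNorm_apply, Submodule.cardQuot_apply]
    have hc2 : Q.under ℤ = Ideal.span {(p : ℤ)} := by
      have : Fact p.Prime := ⟨hpprime⟩
      have hle : Ideal.span {(p : ℤ)} ≤ Q.under ℤ := by
        rw [Ideal.span_singleton_le_iff_mem, Ideal.under_def, Ideal.mem_comap]
        simpa using hpQ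
      have hne : Q.under ℤ ≠ ⊤ := (Ideal.IsPrime.under ℤ Q).ne_top
      exact ((Int.ideal_span_isMaximal_of_prime p).eq_of_le hne hle).symm
    rw [hc1, hc2, Int.card_ideal_quot]
  exact ⟨p, Q, k, hpprime, hpS, hQp, hpQ, hIQ, hcop, hfrob⟩

/-- **WP-F6** in the shape of the blueprint. -/
theorem frobGenerator_of (h1 : InertDensity.{u}) (h2 : NonDegOneNull.{u}) (_h3 : RamFinite.{u}) :
    FrobGenerator.{u} :=
  frobGenerator_of' h1 h2

end Fermat.Agent.Lib.FrobDensity
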