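/-
helper62.  Frobenius density theorem (existence form): inclusion-exclusion for "independent" sets
of primes.
-/
import Mathlib
import Fermat.Agent.Lib.FrobDensity.Basic

set_option autoImplicit false

namespace Fermat.Agent.Lib.FrobDensity

open NumberField IsDedekindDomain

variable {K : Type*} [Field K] [NumberField K]

theorem HasLogDensity.congr_set {A B : Set (HeightOneSpectrum (𝓞 K))} {a b : ℝ}
    (hA : HasLogDensity K A a) (hAB : A = B) (hab : a = b) : HasLogDensity K B b := by
  subst hAB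
  subst hab
  exact hA

/-- Auxiliary statement for `HasLogDensity.iInter_compl`. -/
theorem HasLogDensity.iInter_compl_aux {ι : Type*} [DecidableEq ι] (T : Finset ι)
    (A : ι → Set (HeightOneSpectrum (𝓞 K))) (a : ι → ℝ)
    (h : ∀ D ⊆ T, HasLogDensity K (⋂ t ∈ D, A t) (∏ t ∈ D, a t)) (T' : Finset ι) :
    ∀ D : Finset ι, Disjoint T' D → T' ∪ D ⊆ T →
      HasLogDensity K ((⋂ t ∈ T', (A t)ᶜ) ∩ ⋂ t ∈ D, A t)
        ((∏ t ∈ T', (1 - a t)) * ∏ t ∈ D, a t) := by
  induction T' using Finset.induction_on with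
  | empty =>
    intro D _ hD
    have hD' : D ⊆ T := (Finset.subset_union_right).trans hD
    refine (h D hD').congr_set ?_ ?_
    · simp
    · simp
  | insert t₀ T' ht₀ ih =>
    intro D hdisj hsub
    have hdisj' : Disjoint T' D := by
      rw [Finset.disjoint_insert_left] at hdisj
      exact hdisj.2
    have ht₀D : t₀ ∉ D := by
      rw [Finset.disjoint_insert_left] at hdisj
      exact hdisj.1
    have hsub1 : T' ∪ D ⊆ T := by
      refine (Finset.union_subset_union_left (Finset.subset_insert t₀ T')).trans hsub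
    have hdisj2 : Disjoint T' (insert t₀ D) := by
      rw [Finset.disjoint_insert_right]
      exact ⟨ht₀, hdisj'⟩
    have hsub2 : T' ∪ insert t₀ D ⊆ T := by
      intro x hx
      apply hsub
      rw [Finset.mem_union] at hx ⊢
      rcases hx with hx | hx
      · exact Or.inl (Finset.mem_insert_of_mem hx)
      · rw [Finset.mem_insert] at hx
        rcases hx with rfl | hx
        · exact Or.inl (Finset.mem_insert_self _ _)
        · exact Or.inr hx
    have h1 := ih D hdisj' hsub1
    have h2 := ih (insert t₀ D) hdisj2 hsub2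
    have hX : ((⋂ t ∈ T', (A t)ᶜ) ∩ ⋂ t ∈ insert t₀ D, A t) ⊆
        ((⋂ t ∈ T', (A t)ᶜ) ∩ ⋂ t ∈ D, A t) := by
      intro p hp
      refine ⟨hp.1, ?_⟩
      have := hp.2
      simp only [Set.mem_iInter] at this ⊢
      intro t ht
      exact this t (Finset.mem_insert_of_mem ht)
    refine (h1.diff h2 hX).congr_set ?_ ?_
    · ext p
      simp only [Set.mem_sdiff, Set.mem_inter_iff, Set.mem_iInter, Set.mem_compl_iff,
        Finset.mem_insert, forall_eq_or_imp]
      constructor
      · rintro ⟨⟨h1, h2⟩, h3⟩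
        refine ⟨⟨?_, h1⟩, h2⟩
        intro hp
        exact h3 ⟨h1, hp, h2⟩
      · rintro ⟨⟨h0, h1⟩, h2⟩
        exact ⟨⟨h1, h2⟩, fun h3 => h0 h3.2.1⟩
    · rw [Finset.prod_insert ht₀, Finset.prod_insert ht₀D]
      ring

/-- "Independent events": if for every `D ⊆ T` the intersection `⋂_{t ∈ D} A t` has logarithmic
density `∏_{t ∈ D} a t` (for `D = ∅` this says that the set of all primes has density `1`), then
`⋂_{t ∈ T} (A t)ᶜ` has logarithmic density `∏_{t ∈ T} (1 - a t)`. -/
theorem HasLogDensity.iInter_compl {ι : Type*} [DecidableEq ι] (T : Finset ι)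
    (A : ι → Set (HeightOneSpectrum (𝓞 K))) (a : ι → ℝ)
    (h : ∀ D ⊆ T, HasLogDensity K (⋂ t ∈ D, A t) (∏ t ∈ D, a t)) :
    HasLogDensity K (⋂ t ∈ T, (A t)ᶜ) (∏ t ∈ T, (1 - a t)) := by
  have := HasLogDensity.iInter_compl_aux T A a h T ∅ (Finset.disjoint_empty_right _)
    (by simp)
  refine this.congr_set ?_ ?_
  · simp
  · simp

end Fermat.Agent.Lib.FrobDensity
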