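/-
helper40.  Frobenius density theorem (existence form), WP-F5b: in a cyclic extension the inert
primes have density `∏_{p ∣ n} (1 - 1/p)`, from the density of the primes whose decomposition
groups lie in a given subgroup.  The facts on cyclic groups that are needed are proved here, for
the subgroups `⟨g ^ p⟩` of a group generated by `g`.
-/
import Mathlib
import Fermat.Agent.Lib.FrobDensity.Specs
import Fermat.Agent.Lib.FrobDensity.InclExcl

set_option autoImplicit false
set_option linter.unusedSectionVars false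

universe u

namespace Fermat.Agent.Lib.FrobDensity.Inert

open Subgroup

section Cyclic

variable {G : Type*} [Group G] [Finite G] {g : G} (hg : ∀ x : G, x ∈ zpowers g)

include hg

omit [Finite G] in
lemma orderOf_generator : orderOf g = Nat.card G :=
  orderOf_eq_card_of_forall_mem_zpowers hg

/-- In a cyclic group of order `n` generated by `g`, for `d ∣ n`: `g ^ k ∈ ⟨g ^ d⟩ ↔ d ∣ k`. -/
lemma zpow_mem_zpowers_pow_iff {d : ℕ} (hd : d ∣ Nat.card G) (k : ℤ) :
    g ^ k ∈ zpowers (g ^ d) ↔ (d : ℤ) ∣ k := by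
  constructor
  · rintro ⟨j, hj⟩
    have h1 : g ^ (k - d * j) = 1 := by
      have : (g ^ d) ^ j = g ^ ((d : ℤ) * j) := by
        rw [zpow_mul, zpow_natCast]
      rw [zpow_sub, ← hj]
      simp only at this ⊢
      rw [this, mul_inv_cancel]
    have h2 : (orderOf g : ℤ) ∣ k - d * j := orderOf_dvd_iff_zpow_eq_one.2 h1
    rw [orderOf_generator hg] at h2
    have h3 : (d : ℤ) ∣ k - d * j := (Int.natCast_dvd_natCast.2 hd).trans h2
    have h4 : (d : ℤ) ∣ d * j := dvd_mul_right _ _
    have := dvd_add h3 h4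
    simpa using this
  · rintro ⟨j, rfl⟩
    refine ⟨j, ?_⟩
    simp only
    rw [zpow_mul, zpow_natCast]

lemma index_zpowers_pow {d : ℕ} (hd : d ∣ Nat.card G) : (zpowers (g ^ d)).index = d := by
  have hn : Nat.card G ≠ 0 := Nat.card_pos.ne'
  have hd0 : d ≠ 0 := fun h => hn (by simpa [h] using hd)
  have h1 : Nat.card (zpowers (g ^ d)) = Nat.card G / d := by
    rw [Nat.card_zpowers, orderOf_pow_of_dvd hd0 (by rwa [orderOf_generator hg]),
      orderOf_generator hg]
  have h2 := Subgroup.card_mul_index (zpowers (g ^ d))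
  rw [h1] at h2
  obtain ⟨e, he⟩ := hd
  rw [he, Nat.mul_div_cancel_left e (Nat.pos_of_ne_zero hd0)] at h2
  have he0 : e ≠ 0 := fun h => hn (by simp [he, h])
  have : e * (zpowers (g ^ d)).index = e * d := by rw [h2]; ring
  exact Nat.eq_of_mul_eq_mul_left (Nat.pos_of_ne_zero he0) this

lemma iInf_zpowers_pow (T : Finset ℕ) (hT : T ⊆ (Nat.card G).primeFactors) :
    ⨅ p ∈ T, zpowers (g ^ p) = zpowers (g ^ (∏ p ∈ T, p)) := by
  have hn : Nat.card G ≠ 0 := Nat.card_pos.ne'
  have hprod : (∏ p ∈ T, p) ∣ Nat.card G :=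
    (Finset.prod_dvd_prod_of_subset _ _ _ hT).trans (Nat.prod_primeFactors_dvd _)
  ext x
  obtain ⟨k, rfl⟩ := hg x
  simp only [Subgroup.mem_iInf]
  rw [zpow_mem_zpowers_pow_iff hg hprod]
  constructor
  · intro h
    rw [Int.natCast_dvd]
    apply Finset.prod_primes_dvd
    · intro p hp
      exact (Nat.prime_of_mem_primeFactors (hT hp)).prime
    · intro p hp
      have := (zpow_mem_zpowers_pow_iff hg (Nat.dvd_of_mem_primeFactors (hT hp)) k).1 (h p hp)
      rwa [Int.natCast_dvd] at this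
  · intro h p hp
    rw [zpow_mem_zpowers_pow_iff hg (Nat.dvd_of_mem_primeFactors (hT hp))]
    exact (Int.natCast_dvd_natCast.2 (Finset.dvd_prod_of_mem _ hp)).trans h

lemma exists_le_zpowers_pow_of_ne_top (D : Subgroup G) (hD : D ≠ ⊤) :
    ∃ p ∈ (Nat.card G).primeFactors, D ≤ zpowers (g ^ p) := by
  have hn : Nat.card G ≠ 0 := Nat.card_pos.ne'
  have hidx : D.index ≠ 1 := fun h => hD (Subgroup.index_eq_one.1 h)
  obtain ⟨p, hp, hpd⟩ := Nat.exists_prime_and_dvd hidx
  have hpn : p ∣ Nat.card G := hpd.trans (Subgroup.index_dvd_card D)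
  refine ⟨p, Nat.mem_primeFactors.2 ⟨hp, hpn, hn⟩, ?_⟩
  intro x hx
  obtain ⟨k, rfl⟩ := hg x
  rw [zpow_mem_zpowers_pow_iff hg hpn]
  -- `x ^ (n / p) = 1`
  obtain ⟨e, he⟩ := hpd
  have hcard : Nat.card G = Nat.card D * p * e := by
    rw [← Subgroup.card_mul_index D, he, mul_assoc]
  have h1 : (g ^ k) ^ (Nat.card D * e) = 1 := by
    have : (⟨g ^ k, hx⟩ : D) ^ Nat.card D = 1 := pow_card_eq_one'
    have h2 : (g ^ k) ^ Nat.card D = 1 := by
      have h := congrArg Subtype.val this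
      rw [SubmonoidClass.coe_pow] at h
      exact h
    rw [pow_mul, h2, one_pow]
  have h2 : g ^ (k * ((Nat.card D * e : ℕ) : ℤ)) = 1 := by
    rw [zpow_mul, zpow_natCast]
    exact h1
  have h3 : (orderOf g : ℤ) ∣ k * ((Nat.card D * e : ℕ) : ℤ) := orderOf_dvd_iff_zpow_eq_one.2 h2
  rw [orderOf_generator hg, hcard] at h3
  have hne : ((Nat.card D * e : ℕ) : ℤ) ≠ 0 := by
    have : Nat.card D * e ≠ 0 := by
      intro h
      apply hn
      rw [hcard, mul_assoc, mul_comm p e, ← mul_assoc, h, zero_mul]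
    exact_mod_cast this
  have h4 : ((p : ℤ) * ((Nat.card D * e : ℕ) : ℤ)) ∣ k * ((Nat.card D * e : ℕ) : ℤ) := by
    have : ((Nat.card D * p * e : ℕ) : ℤ) = (p : ℤ) * ((Nat.card D * e : ℕ) : ℤ) := by
      push_cast; ring
    rwa [this] at h3
  exact (mul_dvd_mul_iff_right hne).1 h4

lemma zpowers_pow_ne_top {p : ℕ} (hp : p ∈ (Nat.card G).primeFactors) :
    zpowers (g ^ p) ≠ ⊤ := by
  intro h
  have := index_zpowers_pow hg (Nat.dvd_of_mem_primeFactors hp)
  rw [h, Subgroup.index_top] at this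
  exact (Nat.prime_of_mem_primeFactors hp).one_lt.ne this

end Cyclic


section NumberFields

open NumberField IsDedekindDomain
open scoped Pointwise

variable (F L : Type u) [Field F] [NumberField F] [Field L] [NumberField L] [Algebra F L]
    [IsGalois F L]

lemma exists_prime_liesOver (q : HeightOneSpectrum (𝓞 F)) :
    ∃ Q : Ideal (𝓞 L), Q.IsPrime ∧ Q.LiesOver q.asIdeal := by
  obtain ⟨Q, -, hQ1, hQ2⟩ :=
    Ideal.exists_ideal_over_prime_of_isIntegral q.asIdeal (⊥ : Ideal (𝓞 L)) (by simp)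
  exact ⟨Q, hQ1, ⟨hQ2.symm⟩⟩

/-- In an abelian extension all decomposition groups above a given prime coincide. -/
lemma stabilizer_eq_of_liesOver (hcomm : ∀ a b : Gal(L/F), a * b = b * a)
    (q : HeightOneSpectrum (𝓞 F)) (Q Q' : Ideal (𝓞 L)) (hQ : Q.IsPrime) (hQ' : Q'.IsPrime)
    (hQq : Q.LiesOver q.asIdeal) (hQ'q : Q'.LiesOver q.asIdeal) :
    MulAction.stabilizer Gal(L/F) Q' = MulAction.stabilizer Gal(L/F) Q := by
  have hunder : Q.under (𝓞 F) = Q'.under (𝓞 F) := by
    rw [← hQq.over, ← hQ'q.over]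
  obtain ⟨σ, rfl⟩ := Algebra.IsInvariant.exists_smul_of_under_eq (𝓞 F) (𝓞 L) Gal(L/F) Q Q' hunder
  rw [MulAction.stabilizer_smul_eq_stabilizer_map_conj]
  ext τ
  simp only [Subgroup.mem_map, MulEquiv.coe_toMonoidHom, MulAut.conj_apply]
  constructor
  · rintro ⟨ρ, hρ, rfl⟩
    rwa [hcomm σ ρ, mul_assoc, mul_inv_cancel, mul_one]
  · intro hτ
    exact ⟨τ, hτ, by rw [hcomm σ τ, mul_assoc, mul_inv_cancel, mul_one]⟩

variable {F L}

lemma decompSet_iInf (T : Finset ℕ) (H : ℕ → Subgroup Gal(L/F)) :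
    decompSet F L (⨅ p ∈ T, H p) = ⋂ p ∈ T, decompSet F L (H p) := by
  ext q
  simp only [decompSet, Set.mem_ofPred_eq, Set.mem_iInter, le_iInf_iff]
  constructor
  · intro h p hp Q hQ hQq
    exact h Q hQ hQq p hp
  · intro h Q hQ hQq p hp
    exact h p hp Q hQ hQq

end NumberFields

/-- WP-F5b: the density of the inert primes of a cyclic extension, from the density of the primes
with decomposition groups in a given normal subgroup. -/
theorem _root_.Fermat.Agent.Lib.FrobDensity.inertDensity_of (h : DecompDensity.{u}) :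
    InertDensity.{u} := by
  intro F L _ _ _ _ _ _ _
  classical
  obtain ⟨g, hg⟩ := IsCyclic.exists_generator (α := Gal(L/F))
  have hcomm : ∀ a b : Gal(L/F), a * b = b * a := by
    intro a b
    obtain ⟨i, rfl⟩ := hg a
    obtain ⟨j, rfl⟩ := hg b
    exact (Commute.zpow_zpow_self g i j).eq
  have hnormal : ∀ H : Subgroup Gal(L/F), H.Normal := by
    intro H
    refine ⟨fun n hn x => ?_⟩
    rwa [hcomm x n, mul_assoc, mul_inv_cancel, mul_one]
  set n := Nat.card Gal(L/F) with hn
  set Hp : ℕ → Subgroup Gal(L/F) := fun p => Subgroup.zpowers (g ^ p) with hHp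
  -- the densities of the finite intersections
  have hdens : ∀ D ⊆ n.primeFactors,
      HasLogDensity F (⋂ p ∈ D, decompSet F L (Hp p)) (∏ p ∈ D, (1 / (p : ℝ))) := by
    intro D hD
    have := hnormal (⨅ p ∈ D, Hp p)
    have h1 := h F L (⨅ p ∈ D, Hp p)
    refine h1.congr_set (decompSet_iInf D Hp) ?_
    rw [iInf_zpowers_pow hg D hD, index_zpowers_pow hg]
    · rw [Nat.cast_prod, Finset.prod_div_distrib, Finset.prod_const_one]
    · exact (Finset.prod_dvd_prod_of_subset _ _ _ hD).trans (Nat.prod_primeFactors_dvd _)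
  have h2 := HasLogDensity.iInter_compl n.primeFactors (fun p => decompSet F L (Hp p))
    (fun p => 1 / (p : ℝ)) hdens
  refine h2.congr_set ?_ rfl
  -- the set identity
  ext q
  simp only [Set.mem_iInter, Set.mem_compl_iff, inertSet, decompSet, Set.mem_ofPred_eq]
  obtain ⟨Q₀, hQ₀, hQ₀q⟩ := exists_prime_liesOver F L q
  constructor
  · intro hq Q hQ hQq
    by_contra hne
    obtain ⟨p, hp, hle⟩ := exists_le_zpowers_pow_of_ne_top hg _ hne
    apply hq p hp
    intro Q' hQ' hQ'q
    rw [stabilizer_eq_of_liesOver F L hcomm q Q Q' hQ hQ' hQq hQ'q]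
    exact hle
  · intro hq p hp hall
    have h3 := hall Q₀ hQ₀ hQ₀q
    rw [hq Q₀ hQ₀ hQ₀q, top_le_iff] at h3
    exact zpowers_pow_ne_top hg hp h3

end Fermat.Agent.Lib.FrobDensity.Inert
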