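/-
helper68.  Frobenius density theorem, WP-F1: the primes of a number field whose absolute norm is
not a prime number form a set of logarithmic density zero.
-/
import Mathlib
import Fermat.Agent.Lib.FrobDensity.Specs
import Fermat.Agent.Lib.FrobDensity.Basic

set_option autoImplicit false

namespace Fermat.Agent.Lib.FrobDensity

open NumberField IsDedekindDomain Finset

namespace NonDegOne

variable (F : Type*) [Field F] [NumberField F]

/-- The rational prime below a prime of `F`. -/
noncomputable def ratPrime (q : HeightOneSpectrum (𝓞 F)) : ℕ :=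
  Ideal.absNorm (Ideal.under ℤ q.asIdeal)

omit [NumberField F] in
theorem ratPrime_prime (q : HeightOneSpectrum (𝓞 F)) : (ratPrime F q).Prime := by
  have : q.asIdeal.IsPrime := q.isPrime
  have : NeZero q.asIdeal := ⟨q.ne_bot⟩
  exact Nat.absNorm_under_prime q.asIdeal

instance liesOver_ratPrime (q : HeightOneSpectrum (𝓞 F)) :
    q.asIdeal.LiesOver (Ideal.span {((ratPrime F q : ℕ) : ℤ)}) :=
  Int.liesOver_span_absNorm q.asIdeal

theorem exists_absNorm_eq_pow (q : HeightOneSpectrum (𝓞 F)) :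
    ∃ f : ℕ, 0 < f ∧ Ideal.absNorm q.asIdeal = ratPrime F q ^ f := by
  have hp := ratPrime_prime F q
  refine ⟨_, ?_, Ideal.absNorm_eq_pow_inertiaDeg' q.asIdeal hp⟩
  rw [Nat.pos_iff_ne_zero]
  intro h0
  have h1 := Ideal.absNorm_eq_pow_inertiaDeg' q.asIdeal hp
  rw [h0, pow_zero, Ideal.absNorm_eq_one_iff] at h1
  exact q.isPrime.ne_top h1

/-- If the norm of `q` is not a prime number, it is at least the square of the prime below. -/
theorem sq_le_absNorm (q : HeightOneSpectrum (𝓞 F)) (hq : ¬ (Ideal.absNorm q.asIdeal).Prime) :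
    ratPrime F q ^ 2 ≤ Ideal.absNorm q.asIdeal := by
  obtain ⟨f, hf, h⟩ := exists_absNorm_eq_pow F q
  have hp := ratPrime_prime F q
  have hf2 : 2 ≤ f := by
    by_contra hlt
    have : f = 1 := by omega
    rw [this, pow_one] at h
    exact hq (h ▸ hp)
  rw [h]
  exact Nat.pow_le_pow_right hp.pos hf2

/-- At most `[F : ℚ]` primes of `F` lie above a given prime number. -/
theorem card_fiber_le (p : ℕ) (T : Finset (HeightOneSpectrum (𝓞 F))) :
    #{q ∈ T | ratPrime F q = p} ≤ Module.finrank ℚ F := by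
  classical
  by_cases hp : p.Prime
  · have hP : (Ideal.span {(p : ℤ)}).IsPrime := by
      rw [Ideal.span_singleton_prime (by exact_mod_cast hp.ne_zero)]
      exact Nat.prime_iff_prime_int.mp hp
    have key : ∀ q : HeightOneSpectrum (𝓞 F), ratPrime F q = p →
        q.asIdeal.LiesOver (Ideal.span {(p : ℤ)}) := by
      intro q h
      rw [← h]
      exact liesOver_ratPrime F q
    have : Fact p.Prime := ⟨hp⟩
    have : Fintype ((Ideal.span {(p : ℤ)}).primesOver (𝓞 F)) :=
      (IsDedekindDomain.primesOver_finite (Ideal.span {(p : ℤ)}) (𝓞 F)).fintype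
    have hsum := Ideal.sum_ramification_inertia_eq_finrank (Ideal.span {(p : ℤ)}) (𝓞 F)
    rw [RingOfIntegers.rank] at hsum
    rw [← hsum]
    let g : {q // q ∈ ({q ∈ T | ratPrime F q = p} : Finset _)} →
        (Ideal.span {(p : ℤ)}).primesOver (𝓞 F) :=
      fun q => ⟨q.1.asIdeal, q.1.isPrime, by
        exact key q.1 (Finset.mem_filter.1 q.2).2⟩
    have hg : Function.Injective g := by
      intro a b hab
      have : a.1.asIdeal = b.1.asIdeal := congrArg Subtype.val hab
      exact Subtype.ext (HeightOneSpectrum.ext this)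
    have h1 : #{q ∈ T | ratPrime F q = p} ≤
        Fintype.card ((Ideal.span {(p : ℤ)}).primesOver (𝓞 F)) := by
      have := Fintype.card_le_of_injective g hg
      simpa using this
    refine h1.trans ?_
    rw [Fintype.card_eq_sum_ones]
    refine Finset.sum_le_sum fun q _ => ?_
    have : q.1.IsPrime := q.2.1
    have : q.1.LiesOver (Ideal.span {(p : ℤ)}) := q.2.2
    refine Right.one_le_mul ?_ ?_
    · exact Ideal.ramificationIdx_pos (R := ℤ) (q := q.1)
    · exact Ideal.inertiaDeg_pos (R := ℤ) (q := q.1)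
  · have : ({q ∈ T | ratPrime F q = p} : Finset _) = ∅ := by
      rw [Finset.filter_eq_empty_iff]
      intro q _ h
      exact hp (h ▸ ratPrime_prime F q)
    rw [this]
    simp

/-- The bound for finite sums. -/
theorem sum_le (T : Finset (HeightOneSpectrum (𝓞 F)))
    (hT : ∀ q ∈ T, ¬ (Ideal.absNorm q.asIdeal).Prime) {s : ℝ} (hs : 1 ≤ s) :
    ∑ q ∈ T, pterm F s q ≤ (Module.finrank ℚ F : ℝ) * ∑' k : ℕ, 1 / (k : ℝ) ^ 2 := by
  classical
  have hsum2 : Summable fun k : ℕ => 1 / (k : ℝ) ^ 2 :=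
    Real.summable_one_div_nat_pow.mpr one_lt_two
  have h1 : ∀ q ∈ T, pterm F s q ≤ 1 / ((ratPrime F q : ℕ) : ℝ) ^ 2 := by
    intro q hq
    have hp := ratPrime_prime F q
    have hN := sq_le_absNorm F q (hT q hq)
    have hN1 : (1 : ℝ) ≤ (Ideal.absNorm q.asIdeal : ℝ) := by
      have : 0 < ratPrime F q ^ 2 := pow_pos hp.pos 2
      exact_mod_cast this.trans_le hN
    have hp0 : (0 : ℝ) < ((ratPrime F q : ℕ) : ℝ) ^ 2 := by
      have := hp.pos
      positivity
    unfold pterm
    calc (Ideal.absNorm q.asIdeal : ℝ) ^ (-s)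
        ≤ (Ideal.absNorm q.asIdeal : ℝ) ^ (-(1 : ℝ)) :=
          Real.rpow_le_rpow_of_exponent_le hN1 (by linarith)
      _ = 1 / (Ideal.absNorm q.asIdeal : ℝ) := by
          rw [Real.rpow_neg_one, one_div]
      _ ≤ 1 / ((ratPrime F q : ℕ) : ℝ) ^ 2 := by
          apply one_div_le_one_div_of_le hp0
          exact_mod_cast hN
  calc ∑ q ∈ T, pterm F s q
      ≤ ∑ q ∈ T, 1 / ((ratPrime F q : ℕ) : ℝ) ^ 2 := Finset.sum_le_sum h1
    _ = ∑ p ∈ T.image (ratPrime F), #{q ∈ T | ratPrime F q = p} • (1 / (p : ℝ) ^ 2) :=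
        Finset.sum_comp (fun p : ℕ => 1 / (p : ℝ) ^ 2) (ratPrime F)
    _ ≤ ∑ p ∈ T.image (ratPrime F), (Module.finrank ℚ F : ℝ) * (1 / (p : ℝ) ^ 2) := by
        refine Finset.sum_le_sum fun p _ => ?_
        rw [nsmul_eq_mul]
        gcongr
        exact_mod_cast card_fiber_le F p T
    _ = (Module.finrank ℚ F : ℝ) * ∑ p ∈ T.image (ratPrime F), 1 / (p : ℝ) ^ 2 := by
        rw [Finset.mul_sum]
    _ ≤ (Module.finrank ℚ F : ℝ) * ∑' k : ℕ, 1 / (k : ℝ) ^ 2 := by
        gcongr
        exact hsum2.sum_le_tsum _ (fun k _ => by positivity)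

end NonDegOne

open NonDegOne in
/-- **WP-F1.** The primes of absolute degree at least two have logarithmic density zero. -/
theorem nonDegOneNull : NonDegOneNull := by
  intro F _ _
  classical
  refine ⟨(Module.finrank ℚ F : ℝ) * ∑' k : ℕ, 1 / (k : ℝ) ^ 2, fun s hs1 _ => ?_⟩
  rw [zero_mul, sub_zero, abs_of_nonneg (primeSum_nonneg F _ s)]
  have hC : 0 ≤ (Module.finrank ℚ F : ℝ) * ∑' k : ℕ, 1 / (k : ℝ) ^ 2 :=
    mul_nonneg (Nat.cast_nonneg _) (tsum_nonneg fun k => by positivity)
  unfold primeSum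
  refine tsum_le_of_sum_le' hC fun T => ?_
  -- restrict to the primes of `T` in the set
  have hfilter : ∑ q ∈ T, (degOneSet F)ᶜ.indicator (pterm F s) q =
      ∑ q ∈ T.filter (fun q => q ∈ (degOneSet F)ᶜ), pterm F s q := by
    rw [Finset.sum_filter]
    refine Finset.sum_congr rfl fun q _ => ?_
    by_cases h : q ∈ (degOneSet F)ᶜ
    · rw [Set.indicator_of_mem h, if_pos h]
    · rw [Set.indicator_of_notMem h, if_neg h]
  rw [hfilter]
  refine sum_le F _ (fun q hq => ?_) hs1.le
  exact (Finset.mem_filter.1 hq).2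

end Fermat.Agent.Lib.FrobDensity
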