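/-
helper48.  FROBDENS WP-F2: only finitely many primes of `F` have a prime of `E` above them with a
nontrivial inertia group (`E/F` a Galois extension of number fields).

Proof: for every `σ ≠ 1` in `Gal(E/F)` choose an integer `x_σ ∈ 𝓞 E` with `σ x_σ ≠ x_σ`; then
`δ := ∏_{σ ≠ 1} (σ x_σ - x_σ) ≠ 0` lies in every prime `Q` with nontrivial inertia group, and only
finitely many primes contain a given nonzero element.
-/
import Mathlib
import Fermat.Agent.Lib.FrobDensity.Specs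

set_option autoImplicit false

namespace Fermat.Agent.Lib.FrobDensity

open NumberField IsDedekindDomain

universe u

section

variable (F E : Type*) [Field F] [NumberField F] [Field E] [NumberField E] [Algebra F E]

omit [NumberField F] [NumberField E] in
theorem coe_smul_ringOfIntegers (σ : Gal(E/F)) (x : 𝓞 E) : ((σ • x : 𝓞 E) : E) = σ (x : E) :=
  algebraMap.coe_smul' σ x E

omit [NumberField F] in
/-- A nontrivial automorphism moves some algebraic integer. -/
theorem exists_smul_ne_of_ne_one {σ : Gal(E/F)} (hσ : σ ≠ 1) : ∃ x : 𝓞 E, σ • x ≠ x := by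
  by_contra hcon
  push Not at hcon
  apply hσ
  ext y
  obtain ⟨a, b, hb, rfl⟩ := IsFractionRing.div_surjective (A := 𝓞 E) y
  have ha := congrArg (fun z : 𝓞 E => (z : E)) (hcon a)
  have hb' := congrArg (fun z : 𝓞 E => (z : E)) (hcon b)
  simp only [coe_smul_ringOfIntegers] at ha hb'
  rw [map_div₀, ha, hb', AlgEquiv.one_apply]

/-- A nonzero element of `𝓞 E` lying in every prime with nontrivial inertia group. -/
theorem exists_ne_zero_mem_of_inertia_ne_bot :
    ∃ δ : 𝓞 E, δ ≠ 0 ∧ ∀ Q : Ideal (𝓞 E), Q.IsPrime → Ideal.inertia Gal(E/F) Q ≠ ⊥ → δ ∈ Q := by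
  classical
  have hch : ∀ σ : Gal(E/F), ∃ x : 𝓞 E, σ ≠ 1 → σ • x ≠ x := by
    intro σ
    by_cases hσ : σ = 1
    · exact ⟨0, fun h => absurd hσ h⟩
    · obtain ⟨x, hx⟩ := exists_smul_ne_of_ne_one F E hσ
      exact ⟨x, fun _ => hx⟩
  choose x hx using hch
  refine ⟨∏ σ ∈ (Finset.univ : Finset Gal(E/F)).filter (· ≠ 1), (σ • x σ - x σ), ?_, ?_⟩
  · rw [Finset.prod_ne_zero_iff]
    intro σ hσ
    rw [Finset.mem_filter] at hσ
    exact sub_ne_zero.2 (hx σ hσ.2)
  · intro Q _ hQ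
    obtain ⟨σ, hσ1⟩ := (Subgroup.ne_bot_iff_exists_ne_one).1 hQ
    have hσ1' : (σ : Gal(E/F)) ≠ 1 := fun h => hσ1 (Subtype.ext h)
    have hmem : (σ : Gal(E/F)) • x σ - x σ ∈ Q := σ.2 (x σ)
    exact Ideal.prod_mem Q (Finset.mem_filter.2 ⟨Finset.mem_univ _, hσ1'⟩) hmem

end

/-- **WP-F2.** -/
theorem ramFinite : RamFinite.{u} := by
  intro F E _ _ _ _ _ _
  obtain ⟨δ, hδ0, hδ⟩ := exists_ne_zero_mem_of_inertia_ne_bot F E
  have hI : Ideal.span {δ} ≠ (0 : Ideal (𝓞 E)) := by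
    rw [Ne, Ideal.zero_eq_bot, Ideal.span_singleton_eq_bot]; exact hδ0
  have hfin := Ideal.finite_factors hI
  -- the finite set of ideals of `𝓞 F` below the primes dividing `δ`
  have hfin' : ((fun v : HeightOneSpectrum (𝓞 E) => v.asIdeal.under (𝓞 F)) ''
      {v : HeightOneSpectrum (𝓞 E) | v.asIdeal ∣ Ideal.span {δ}}).Finite := hfin.image _
  apply Set.Finite.of_finite_image (f := fun q : HeightOneSpectrum (𝓞 F) => q.asIdeal)
  · apply hfin'.subset
    rintro _ ⟨q, ⟨Q, hQp, hQq, hQi⟩, rfl⟩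
    have hQ0 : Q ≠ ⊥ := by
      rintro rfl
      have h1 : q.asIdeal = (⊥ : Ideal (𝓞 E)).under (𝓞 F) := hQq.over
      have h2 : (⊥ : Ideal (𝓞 E)).under (𝓞 F) = ⊥ := by
        rw [Ideal.under_def]
        exact Ideal.comap_bot_of_injective _ (FaithfulSMul.algebraMap_injective (𝓞 F) (𝓞 E))
      exact q.ne_bot (h1.trans h2)
    refine ⟨⟨Q, hQp, hQ0⟩, ?_, ?_⟩
    · show Q ∣ Ideal.span {δ}
      rw [Ideal.dvd_iff_le, Ideal.span_singleton_le_iff_mem]
      exact hδ Q hQp hQi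
    · show Q.under (𝓞 F) = q.asIdeal
      exact hQq.over.symm
  · intro q _ q' _ h
    exact HeightOneSpectrum.ext h

end Fermat.Agent.Lib.FrobDensity
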