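/-
helper62.  Frobenius density theorem (existence form): the set of all primes of a number field
has logarithmic density `1`, i.e. `∑_p N(p)^(-s) = log (1/(s-1)) + O(1)` on `(1,2]`.
Inputs: simple pole of the Dedekind zeta function (Mathlib) and its Euler product (helper38).
-/
import Mathlib
import Fermat.Agent.Lib.FrobDensity.Basic

set_option autoImplicit false

namespace Fermat.Agent.Lib.FrobDensity

open NumberField IsDedekindDomain Filter Topology
open Fermat.Agent.Lib.CFT.Unram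

variable (K : Type*) [Field K] [NumberField K]

/-! ### Elementary inequalities for `-log (1 - x)` -/

theorem le_neg_log_one_sub {x : ℝ} (hx : x < 1) : x ≤ -Real.log (1 - x) := by
  have := Real.log_le_sub_one_of_pos (by linarith : 0 < 1 - x)
  linarith

theorem neg_log_one_sub_le {x : ℝ} (h0 : 0 ≤ x) (hx : x ≤ 1 / 2) :
    -Real.log (1 - x) ≤ x + 2 * x ^ 2 := by
  have habs : |x| < 1 := by rw [abs_of_nonneg h0]; linarith
  have h := Real.abs_log_sub_add_sum_range_le habs 1
  simp only [Finset.range_one, Finset.sum_singleton, zero_add, pow_one, Nat.cast_zero, div_one,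
    abs_of_nonneg h0] at h
  have h1 : x ^ (1 + 1) / (1 - x) ≤ 2 * x ^ 2 := by
    rw [div_le_iff₀ (by linarith)]
    have h3 : 0 ≤ x ^ 2 := sq_nonneg x
    have h4 : x ^ (1 + 1) = x ^ 2 := by norm_num
    rw [h4]
    have h5 : (1 : ℝ) / 2 ≤ 1 - x := by linarith
    nlinarith
  have h2 := (abs_le.1 h).1
  linarith

/-! ### The terms of the Euler product -/

theorem pterm_le_half {s : ℝ} (hs : 1 ≤ s) (p : HeightOneSpectrum (𝓞 K)) :
    pterm K s p ≤ 1 / 2 := by
  unfold pterm
  have h2 : (2 : ℝ) ≤ (Ideal.absNorm p.asIdeal : ℝ) := by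
    exact_mod_cast EulerProduct.one_lt_absNorm_prime K p
  have h3 : (Ideal.absNorm p.asIdeal : ℝ) ^ (-s) ≤ (Ideal.absNorm p.asIdeal : ℝ) ^ (-(1 : ℝ)) :=
    Real.rpow_le_rpow_of_exponent_le (by linarith) (by linarith)
  refine h3.trans ?_
  rw [Real.rpow_neg_one, one_div]
  exact inv_anti₀ (by norm_num) h2

theorem pterm_sq_le {s : ℝ} (hs : 1 ≤ s) (p : HeightOneSpectrum (𝓞 K)) :
    (pterm K s p) ^ 2 ≤ pterm K 2 p := by
  unfold pterm
  have h1 : (1 : ℝ) ≤ (Ideal.absNorm p.asIdeal : ℝ) := by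
    exact_mod_cast (EulerProduct.one_lt_absNorm_prime K p).le
  rw [← Real.rpow_natCast, ← Real.rpow_mul (by linarith)]
  exact Real.rpow_le_rpow_of_exponent_le h1 (by push_cast; linarith)

theorem pterm_antitone {s t : ℝ} (hst : s ≤ t) (p : HeightOneSpectrum (𝓞 K)) :
    pterm K t p ≤ pterm K s p := by
  unfold pterm
  have h1 : (1 : ℝ) ≤ (Ideal.absNorm p.asIdeal : ℝ) := by
    exact_mod_cast (EulerProduct.one_lt_absNorm_prime K p).le
  exact Real.rpow_le_rpow_of_exponent_le h1 (by linarith)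

/-- The logarithm of the Euler factor at `p`. -/
noncomputable def logFactor (s : ℝ) (p : HeightOneSpectrum (𝓞 K)) : ℝ :=
  Real.log ((1 - pterm K s p)⁻¹)

theorem logFactor_eq (s : ℝ) (p : HeightOneSpectrum (𝓞 K)) :
    logFactor K s p = -Real.log (1 - pterm K s p) := by
  unfold logFactor
  rw [Real.log_inv]

theorem pterm_le_logFactor {s : ℝ} (hs : 1 ≤ s) (p : HeightOneSpectrum (𝓞 K)) :
    pterm K s p ≤ logFactor K s p := by
  rw [logFactor_eq]
  exact le_neg_log_one_sub (by linarith [pterm_le_half K hs p])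

theorem logFactor_le {s : ℝ} (hs : 1 ≤ s) (p : HeightOneSpectrum (𝓞 K)) :
    logFactor K s p ≤ pterm K s p + 2 * pterm K 2 p := by
  rw [logFactor_eq]
  refine (neg_log_one_sub_le (pterm_nonneg K s p) (pterm_le_half K hs p)).trans ?_
  have := pterm_sq_le K hs p
  linarith

theorem summable_logFactor {s : ℝ} (hs : 1 < s) : Summable (logFactor K s) := by
  refine Summable.of_nonneg_of_le (fun p => (pterm_nonneg K s p).trans (pterm_le_logFactor K hs.le p))
    (fun p => logFactor_le K hs.le p) ?_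
  exact (summable_pterm K hs).add ((summable_pterm K (by norm_num : (1 : ℝ) < 2)).mul_left 2)

/-- `log ζ_K(s) = ∑_p log (1 - N(p)^(-s))⁻¹`. -/
theorem log_zetaReal_eq {s : ℝ} (hs : 1 < s) :
    Real.log (EulerProduct.zetaReal K s) = ∑' p, logFactor K s p := by
  have hpos : ∀ p : HeightOneSpectrum (𝓞 K), 0 < (1 - (Ideal.absNorm p.asIdeal : ℝ) ^ (-s))⁻¹ :=
    fun p => EulerProduct.factor_pos K p (by linarith)
  have h1 := Real.hasProd_of_hasSum_log hpos (summable_logFactor K hs).hasSum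
  have h2 := EulerProduct.zetaReal_hasProd K hs
  have h3 := h1.unique h2
  rw [← h3, Real.log_exp]

theorem primeSum_univ_eq (s : ℝ) : primeSum K Set.univ s = ∑' p, pterm K s p := by
  unfold primeSum
  simp

/-- `∑_p N(p)^(-s) ≤ log ζ_K(s) ≤ ∑_p N(p)^(-s) + 2 ∑_p N(p)^(-2)`. -/
theorem primeSum_le_log_zetaReal {s : ℝ} (hs : 1 < s) :
    primeSum K Set.univ s ≤ Real.log (EulerProduct.zetaReal K s) := by
  rw [primeSum_univ_eq, log_zetaReal_eq K hs]
  exact (summable_pterm K hs).tsum_le_tsum (fun p => pterm_le_logFactor K hs.le p)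
    (summable_logFactor K hs)

theorem log_zetaReal_le {s : ℝ} (hs : 1 < s) :
    Real.log (EulerProduct.zetaReal K s) ≤ primeSum K Set.univ s + 2 * primeSum K Set.univ 2 := by
  rw [primeSum_univ_eq, primeSum_univ_eq, log_zetaReal_eq K hs]
  have h2 := summable_pterm K (by norm_num : (1 : ℝ) < 2)
  rw [← tsum_mul_left, ← (summable_pterm K hs).tsum_add (h2.mul_left 2)]
  exact (summable_logFactor K hs).tsum_le_tsum (fun p => logFactor_le K hs.le p)
    ((summable_pterm K hs).add (h2.mul_left 2))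

/-! ### The pole of `ζ_K` at `1` -/

theorem tendsto_sub_one_mul_zetaReal :
    Tendsto (fun s : ℝ => (s - 1) * EulerProduct.zetaReal K s) (𝓝[>] 1)
      (𝓝 (dedekindZeta_residue K)) := by
  have h := tendsto_sub_one_mul_dedekindZeta_nhdsGT K
  have h2 : Tendsto (fun s : ℝ => (((s - 1) * EulerProduct.zetaReal K s : ℝ) : ℂ)) (𝓝[>] 1)
      (𝓝 ((dedekindZeta_residue K : ℝ) : ℂ)) := by
    refine h.congr' ?_
    filter_upwards [self_mem_nhdsWithin] with s hs
    rw [EulerProduct.dedekindZeta_eq_zetaReal K hs]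
    push_cast
    ring
  exact (Complex.continuous_re.tendsto _).comp h2 |>.congr (fun s => by simp)

theorem zetaReal_antitone {s t : ℝ} (hs : 1 < s) (hst : s ≤ t) :
    EulerProduct.zetaReal K t ≤ EulerProduct.zetaReal K s := by
  have ht : 1 < t := lt_of_lt_of_le hs hst
  refine (EulerProduct.summable_zetaReal K ht).tsum_le_tsum (fun a => ?_)
    (EulerProduct.summable_zetaReal K hs)
  have h0 : (a : Ideal (𝓞 K)) ≠ ⊥ := nonZeroDivisors.coe_ne_zero a
  have h1 : (1 : ℝ) ≤ (Ideal.absNorm (a : Ideal (𝓞 K)) : ℝ) := by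
    have : Ideal.absNorm (a : Ideal (𝓞 K)) ≠ 0 := by
      rw [Ne, Ideal.absNorm_eq_zero_iff]
      exact h0
    exact_mod_cast Nat.one_le_iff_ne_zero.2 this
  exact Real.rpow_le_rpow_of_exponent_le h1 (by linarith)

/-- `(s - 1) ζ_K(s)` is bounded above and below by positive constants on `(1,2]`. -/
theorem exists_bounds_sub_one_mul_zetaReal :
    ∃ c₁ c₂ : ℝ, 0 < c₁ ∧ 0 < c₂ ∧ ∀ s : ℝ, 1 < s → s ≤ 2 →
      c₁ ≤ (s - 1) * EulerProduct.zetaReal K s ∧ (s - 1) * EulerProduct.zetaReal K s ≤ c₂ := by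
  set ρ := dedekindZeta_residue K with hρ
  have hρpos : 0 < ρ := dedekindZeta_residue_pos K
  have h := tendsto_sub_one_mul_zetaReal K
  have h1 : ∀ᶠ s in 𝓝[>] (1 : ℝ), ρ / 2 < (s - 1) * EulerProduct.zetaReal K s :=
    h.eventually (lt_mem_nhds (by linarith))
  have h2 : ∀ᶠ s in 𝓝[>] (1 : ℝ), (s - 1) * EulerProduct.zetaReal K s < 2 * ρ :=
    h.eventually (gt_mem_nhds (by linarith))
  obtain ⟨u, hu1, hu⟩ := (mem_nhdsGT_iff_exists_Ioo_subset).1 (h1.and h2)
  -- shrink to `δ = min u 2`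
  set δ := min u 2 with hδ
  have hδ1 : 1 < δ := lt_min hu1 (by norm_num)
  have hδ2 : δ ≤ 2 := min_le_right _ _
  have hζδ : 0 < EulerProduct.zetaReal K δ := EulerProduct.zetaReal_pos K hδ1
  refine ⟨min (ρ / 2) (δ - 1), max (2 * ρ) (EulerProduct.zetaReal K δ), ?_, ?_, fun s hs hs2 => ?_⟩
  · exact lt_min (by linarith) (by linarith)
  · exact lt_max_of_lt_left (by linarith)
  · by_cases hsδ : s < δ
    · have hmem : s ∈ Set.Ioo 1 u := ⟨hs, lt_of_lt_of_le hsδ (min_le_left _ _)⟩
      have := hu hmem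
      exact ⟨(min_le_left _ _).trans this.1.le, this.2.le.trans (le_max_left _ _)⟩
    · rw [not_lt] at hsδ
      have hz1 : 1 ≤ EulerProduct.zetaReal K s := EulerProduct.one_le_zetaReal K hs
      have hz2 : EulerProduct.zetaReal K s ≤ EulerProduct.zetaReal K δ :=
        zetaReal_antitone K hδ1 hsδ
      constructor
      · refine (min_le_right _ _).trans ?_
        nlinarith
      · refine le_trans ?_ (le_max_right _ _)
        nlinarith

/-- **The set of all primes has logarithmic density `1`.** -/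
theorem hasLogDensity_univ : HasLogDensity K Set.univ 1 := by
  obtain ⟨c₁, c₂, hc₁, hc₂, hb⟩ := exists_bounds_sub_one_mul_zetaReal K
  refine ⟨|Real.log c₁| + |Real.log c₂| + 2 * primeSum K Set.univ 2, fun s hs hs2 => ?_⟩
  have hζ := EulerProduct.zetaReal_pos K hs
  have hs1 : 0 < s - 1 := by linarith
  obtain ⟨hb1, hb2⟩ := hb s hs hs2
  -- `log ζ(s) - logPole s = log ((s-1) ζ(s))`
  have hlog : Real.log (EulerProduct.zetaReal K s) - logPole s =
      Real.log ((s - 1) * EulerProduct.zetaReal K s) := by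
    unfold logPole
    rw [Real.log_mul hs1.ne' hζ.ne', one_div, Real.log_inv]
    ring
  have h3 : Real.log c₁ ≤ Real.log ((s - 1) * EulerProduct.zetaReal K s) :=
    Real.log_le_log hc₁ hb1
  have h4 : Real.log ((s - 1) * EulerProduct.zetaReal K s) ≤ Real.log c₂ :=
    Real.log_le_log (mul_pos hs1 hζ) hb2
  have h5 := primeSum_le_log_zetaReal K hs
  have h6 := log_zetaReal_le K hs
  have h7 := primeSum_nonneg K Set.univ 2
  have h8 := neg_abs_le (Real.log c₁)
  have h9 := le_abs_self (Real.log c₂)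
  have h10 := abs_nonneg (Real.log c₁)
  have h11 := abs_nonneg (Real.log c₂)
  rw [one_mul, abs_le]
  constructor <;> linarith

end Fermat.Agent.Lib.FrobDensity
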