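/-
helper62.  Frobenius density theorem, WP-F3: the primes of `F` splitting completely in a Galois
extension `E/F` have logarithmic density `1/[E:F]` (given that primes of degree `≥ 2` have density
zero and that only finitely many primes ramify).
-/
import Mathlib
import Fermat.Agent.Lib.FrobDensity.Specs
import Fermat.Agent.Lib.FrobDensity.Basic
import Fermat.Agent.Lib.FrobDensity.PrimeSum
import Fermat.Agent.Lib.CFT.Unram.ArtinMap

set_option autoImplicit false

namespace Fermat.Agent.Lib.FrobDensity

open NumberField IsDedekindDomain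
open Fermat.Agent.Lib.CFT.Unram
open scoped Pointwise

section under

variable (F E : Type*) [Field F] [NumberField F] [Field E] [NumberField E] [Algebra F E]

/-- The prime of `F` below a prime of `E`. -/
noncomputable def underPrime (Q : HeightOneSpectrum (𝓞 E)) : HeightOneSpectrum (𝓞 F) :=
  ⟨Q.asIdeal.under (𝓞 F), Ideal.IsPrime.under (𝓞 F) Q.asIdeal, ArtinMap.under_ne_bot Q.ne_bot⟩

instance underPrime_liesOver (Q : HeightOneSpectrum (𝓞 E)) :
    Q.asIdeal.LiesOver (underPrime F E Q).asIdeal := ⟨rfl⟩

theorem underPrime_eq_iff (Q : HeightOneSpectrum (𝓞 E)) (q : HeightOneSpectrum (𝓞 F)) :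
    underPrime F E Q = q ↔ Q.asIdeal ∈ q.asIdeal.primesOver (𝓞 E) := by
  constructor
  · rintro rfl
    exact ⟨Q.isPrime, ⟨rfl⟩⟩
  · rintro ⟨_, h⟩
    exact HeightOneSpectrum.ext h.over.symm

/-- The fibre of `underPrime` over `q` is the set of primes over `q`. -/
noncomputable def fiberEquiv (q : HeightOneSpectrum (𝓞 F)) :
    (underPrime F E ⁻¹' {q}) ≃ q.asIdeal.primesOver (𝓞 E) where
  toFun Q := ⟨Q.1.asIdeal, (underPrime_eq_iff F E Q.1 q).mp Q.2⟩
  invFun P := ⟨⟨P.1, P.2.1,
    haveI := P.2.2
    ArtinMap.ne_bot_of_liesOver F E P.1 q.asIdeal q.ne_bot⟩,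
    (underPrime_eq_iff F E _ q).mpr P.2⟩
  left_inv Q := by ext; rfl
  right_inv P := by ext; rfl

theorem finite_fiber (q : HeightOneSpectrum (𝓞 F)) : (underPrime F E ⁻¹' {q}).Finite := by
  have h : (q.asIdeal.primesOver (𝓞 E)).Finite := Algebra.QuasiFinite.finite_primesOver q.asIdeal
  exact (Equiv.set_finite_iff (fiberEquiv F E q)).mpr h

theorem natCard_fiber (q : HeightOneSpectrum (𝓞 F)) :
    Nat.card (underPrime F E ⁻¹' {q}) = (q.asIdeal.primesOver (𝓞 E)).ncard := by
  rw [Nat.card_congr (fiberEquiv F E q), Nat.card_coe_set_eq]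

/-- The norm of a prime of `E` in terms of the prime below. -/
theorem absNorm_eq_pow (Q : HeightOneSpectrum (𝓞 E)) :
    Ideal.absNorm Q.asIdeal =
      Ideal.absNorm (underPrime F E Q).asIdeal ^ Q.asIdeal.inertiaDeg (𝓞 F) := by
  have h := ArtinMap.natCard_quotient Q.asIdeal (underPrime F E Q).asIdeal
    (underPrime F E Q).ne_bot
  rwa [← Submodule.cardQuot_apply, ← Submodule.cardQuot_apply, ← Ideal.absNorm_apply,
    ← Ideal.absNorm_apply] at h

end under

section galois

variable (F E : Type*) [Field F] [NumberField F] [Field E] [NumberField E] [Algebra F E]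
  [IsGalois F E]

/-- Over a completely split prime every prime has inertia degree one. -/
theorem inertiaDeg_eq_one_of_mem_splitSet (Q : HeightOneSpectrum (𝓞 E))
    (h : underPrime F E Q ∈ splitSet F E) : Q.asIdeal.inertiaDeg (𝓞 F) = 1 := by
  have key := Ideal.ncard_primesOver_mul_card_inertia_mul_finrank (G := Gal(E/F))
    (underPrime F E Q).asIdeal Q.asIdeal
  have hG : Nat.card Gal(E/F) = Module.finrank F E := IsGalois.card_aut_eq_finrank F E
  have hd : 0 < Module.finrank F E := Module.finrank_pos
  rw [splitSet, Set.mem_ofPred_eq] at h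
  rw [h, hG, mul_assoc] at key
  have := Nat.eq_of_mul_eq_mul_left hd (key.trans (mul_one _).symm)
  exact Nat.eq_one_of_mul_eq_one_left this

/-- A degree one prime of `E` lies over a completely split or a ramified prime of `F`. -/
theorem mem_ramSet_of_degOne (Q : HeightOneSpectrum (𝓞 E)) (hQ : Q ∈ degOneSet E)
    (h : underPrime F E Q ∉ splitSet F E) : underPrime F E Q ∈ ramSet F E := by
  have key := Ideal.ncard_primesOver_mul_card_inertia_mul_finrank (G := Gal(E/F))
    (underPrime F E Q).asIdeal Q.asIdeal
  have hG : Nat.card Gal(E/F) = Module.finrank F E := IsGalois.card_aut_eq_finrank F E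
  have hf : Q.asIdeal.inertiaDeg (𝓞 F) = 1 := by
    have h1 := absNorm_eq_pow F E Q
    rw [degOneSet, Set.mem_ofPred_eq] at hQ
    rw [h1] at hQ
    exact ((Nat.Prime.pow_eq_iff hQ).mp rfl).2
  refine ⟨Q.asIdeal, Q.isPrime, inferInstance, fun hI => h ?_⟩
  rw [splitSet, Set.mem_ofPred_eq]
  rw [hf, mul_one, hI, Subgroup.card_bot, mul_one, hG] at key
  exact key

/-- The primes of `E` above a completely split prime of `F`. -/
def aboveSplit : Set (HeightOneSpectrum (𝓞 E)) := underPrime F E ⁻¹' splitSet F E

omit [IsGalois F E] in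
theorem finite_preimage_underPrime {R : Set (HeightOneSpectrum (𝓞 F))} (hR : R.Finite) :
    (underPrime F E ⁻¹' R).Finite := by
  have : underPrime F E ⁻¹' R = ⋃ q ∈ R, underPrime F E ⁻¹' {q} := by
    ext Q
    simp
  rw [this]
  exact hR.biUnion fun q _ => finite_fiber F E q

/-- The complement of `aboveSplit` consists of primes of degree at least two and of finitely many
ramified primes. -/
theorem compl_aboveSplit_subset :
    (aboveSplit F E)ᶜ ⊆ (degOneSet E)ᶜ ∪ underPrime F E ⁻¹' ramSet F E := by
  intro Q hQ
  by_cases h1 : Q ∈ degOneSet E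
  · exact Or.inr (mem_ramSet_of_degOne F E Q h1 hQ)
  · exact Or.inl h1

/-- The sum over the primes of `E` above completely split primes is `[E:F]` times the sum over the
completely split primes of `F`. -/
theorem primeSum_aboveSplit {s : ℝ} (hs : 1 < s) :
    primeSum E (aboveSplit F E) s = Module.finrank F E * primeSum F (splitSet F E) s := by
  have hsum := (summable_indicator_pterm E hs (aboveSplit F E)).hasSum
  have h2 := (hsum.tsum_fiberwise (underPrime F E)).tsum_eq
  unfold primeSum
  rw [← h2, ← tsum_mul_left]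
  refine tsum_congr fun q => ?_
  have : Fintype (underPrime F E ⁻¹' {q}) := (finite_fiber F E q).fintype
  rw [tsum_fintype]
  by_cases hq : q ∈ splitSet F E
  · rw [Set.indicator_of_mem hq]
    have : ∀ Q : (underPrime F E ⁻¹' {q}),
        (aboveSplit F E).indicator (pterm E s) Q.1 = pterm F s q := by
      intro Q
      have hQq : underPrime F E Q.1 = q := Q.2
      have hmem : Q.1 ∈ aboveSplit F E := by
        show underPrime F E Q.1 ∈ splitSet F E
        rw [hQq]; exact hq
      rw [Set.indicator_of_mem hmem]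
      unfold pterm
      rw [absNorm_eq_pow F E Q.1, inertiaDeg_eq_one_of_mem_splitSet F E Q.1 hmem, pow_one, hQq]
    rw [Finset.sum_congr rfl fun Q _ => this Q, Finset.sum_const, Finset.card_univ, nsmul_eq_mul,
      ← Nat.card_eq_fintype_card, natCard_fiber]
    rw [splitSet, Set.mem_ofPred_eq] at hq
    rw [hq]
  · rw [Set.indicator_of_notMem hq, mul_zero]
    refine Finset.sum_eq_zero fun Q _ => ?_
    have hQq : underPrime F E Q.1 = q := Q.2
    have hmem : Q.1 ∉ aboveSplit F E := by
      show underPrime F E Q.1 ∉ splitSet F E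
      rw [hQq]; exact hq
    exact Set.indicator_of_notMem hmem _

end galois

universe u

theorem splitDensity_of (h1 : NonDegOneNull.{u}) (h2 : RamFinite.{u}) : SplitDensity.{u} := by
  intro F E _ _ _ _ _ _
  have hnull : HasLogDensity E (aboveSplit F E)ᶜ 0 := by
    refine HasLogDensity.mono_null ?_ (compl_aboveSplit_subset F E)
    have hA := h1 E
    have hB : HasLogDensity E (underPrime F E ⁻¹' ramSet F E \ (degOneSet E)ᶜ) 0 :=
      HasLogDensity.of_finite ((finite_preimage_underPrime F E (h2 F E)).subset Set.sdiff_subset)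
    have := HasLogDensity.union hA hB Set.disjoint_sdiff_right
    rwa [Set.union_sdiff_self, add_zero] at this
  have hone : HasLogDensity E (aboveSplit F E) 1 := by
    have := HasLogDensity.diff_null (hasLogDensity_univ E) hnull
    rwa [Set.sdiff_compl, Set.univ_inter] at this
  obtain ⟨C, hC⟩ := hone
  have hd : (0 : ℝ) < Module.finrank F E := by exact_mod_cast Module.finrank_pos
  refine ⟨C / Module.finrank F E, fun s hs hs2 => ?_⟩
  have := hC s hs hs2
  rw [primeSum_aboveSplit F E hs] at this
  rw [le_div_iff₀ hd]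
  calc |primeSum F (splitSet F E) s - 1 / (Module.finrank F E : ℝ) * logPole s|
        * (Module.finrank F E : ℝ)
      = |(Module.finrank F E : ℝ) * primeSum F (splitSet F E) s - 1 * logPole s| := by
        rw [← abs_of_pos hd, ← abs_mul, abs_of_pos hd]
        congr 1
        field_simp
    _ ≤ C := this

end Fermat.Agent.Lib.FrobDensity
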