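/-
helper62.  Frobenius density theorem (existence form): final assembly of the work packages
F1 (helper68), F2 (helper48), F3 (helper62), F4 (helper9), F5 (helper4, helper40), F6 (helper45),
F7 (helper54).

* `frobGenerator : FrobGenerator` : for a Galois number field `L/ℚ`, `g ∈ Gal(L/ℚ)` and a finite
  set `S` of primes, some generator `g ^ k` (`k` prime to the order of `g`) of the cyclic group
  generated by `g` is an arithmetic Frobenius at an unramified prime of `L` above some `p ∉ S`.
* `frobPowerDense : FrobPowerDense` and the two-sided form
  `frobGeneratorDense : FrobGeneratorDense` in the language of valuation subrings of `ℚ̄`.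
-/
import Mathlib
import Fermat.Agent.Lib.FrobDensity.NonDegOne
import Fermat.Agent.Lib.FrobDensity.RamFinite
import Fermat.Agent.Lib.FrobDensity.SplitDensity
import Fermat.Agent.Lib.FrobDensity.Decomp
import Fermat.Agent.Lib.FrobDensity.Inert
import Fermat.Agent.Lib.FrobDensity.FrobGenerator
import Fermat.Agent.Lib.FrobDensity.Bridge

set_option autoImplicit false

namespace Fermat.Agent.Lib.FrobDensity

open NumberField
open scoped Pointwise

universe u

/-- The primes splitting completely in a Galois extension `E/F` have density `1/[E:F]`. -/
theorem splitDensity : SplitDensity.{u} := splitDensity_of nonDegOneNull ramFinite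

/-- The primes whose decomposition groups lie in a normal subgroup `H'` have density
`1/[G:H']`. -/
theorem decompDensity : DecompDensity.{u} := decompDensity_of splitDensity

/-- In a cyclic extension the inert primes have density `∏_{p ∣ n} (1 - 1/p)`. -/
theorem inertDensity : InertDensity.{u} := inertDensity_of decompDensity

/-- **Frobenius density theorem, existence form**, for Galois number fields over `ℚ`. -/
theorem frobGenerator : FrobGenerator.{u} :=
  frobGenerator_of inertDensity nonDegOneNull ramFinite

/-- **Frobenius density theorem, existence form**, in `Gal(ℚ̄/ℚ)`. -/
theorem frobPowerDense : FrobPowerDense := frobPowerDense_of frobGenerator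

end Fermat.Agent.Lib.FrobDensity
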