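import Mathlib

/-!
helper4 (FROBDENS WP-F5a).  Pure group theory: the subgroups of `p`-th powers of a finite cyclic
group.

For a group `G` with `[IsCyclic G]`, `powSubgroup G p` is the subgroup `{x | ∃ y, y ^ p = x}`
(a subgroup because cyclic groups are commutative).  With `n = Nat.card G`:

* `index_iInf_powSubgroup` : for `T ⊆ n.primeFactors`,
  `(⨅ p ∈ T, powSubgroup G p).index = ∏ p ∈ T, p`;
* `eq_top_iff_forall_not_le_powSubgroup` : `D = ⊤ ↔ ∀ p ∈ n.primeFactors, ¬ D ≤ powSubgroup G p`.

The versions for a commutative group and `(powMonoidHom p).range` are `index_iInf_powRange`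
and `eq_top_iff_forall_not_le_powRange`.
-/

set_option autoImplicit false

namespace Fermat.Agent.Lib.FrobDensity.CyclicLemmas

/-! ### Commutative version -/

section Comm

variable {G : Type*} [CommGroup G]

/-- The subgroup of `d`-th powers. -/
abbrev powRange (G : Type*) [CommGroup G] (d : ℕ) : Subgroup G := (powMonoidHom d : G →* G).range

theorem mem_powRange {d : ℕ} {x : G} : x ∈ powRange G d ↔ ∃ y, y ^ d = x := by
  simp [powRange, MonoidHom.mem_range]

/-- `H_a ⊓ H_b = H_{ab}` for coprime `a`, `b`. -/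
theorem powRange_inf_of_coprime {a b : ℕ} (hab : a.Coprime b) :
    powRange G a ⊓ powRange G b = powRange G (a * b) := by
  ext x
  rw [Subgroup.mem_inf, mem_powRange, mem_powRange, mem_powRange]
  constructor
  · rintro ⟨⟨y, hy⟩, ⟨z, hz⟩⟩
    -- Bezout: `a * u + b * w = 1` in `ℤ`
    have hbez : (a : ℤ) * Nat.gcdA a b + (b : ℤ) * Nat.gcdB a b = 1 := by
      have := Nat.gcd_eq_gcd_ab a b
      rw [hab.gcd_eq_one] at this
      exact_mod_cast this.symm
    set u := Nat.gcdA a b
    set w := Nat.gcdB a b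
    -- `x = x ^ (a u + b w) = (z ^ u * y ^ w) ^ (a b)`
    have hx : x = (z ^ u * y ^ w) ^ ((a * b : ℕ) : ℤ) := by
      calc x = x ^ ((a : ℤ) * u + (b : ℤ) * w) := by rw [hbez, zpow_one]
        _ = (x ^ (a : ℤ)) ^ u * (x ^ (b : ℤ)) ^ w := by rw [zpow_add, zpow_mul, zpow_mul]
        _ = ((z ^ b) ^ (a : ℤ)) ^ u * ((y ^ a) ^ (b : ℤ)) ^ w := by rw [hz, hy]
        _ = (z ^ u * y ^ w) ^ ((a * b : ℕ) : ℤ) := by
          rw [mul_zpow, ← zpow_natCast z b, ← zpow_natCast y a, ← zpow_mul, ← zpow_mul, ← zpow_mul,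
            ← zpow_mul, ← zpow_mul, ← zpow_mul]
          push_cast
          congr 2 <;> ring
    refine ⟨z ^ u * y ^ w, ?_⟩
    rw [hx, zpow_natCast]
  · rintro ⟨y, hy⟩
    refine ⟨⟨y ^ b, ?_⟩, ⟨y ^ a, ?_⟩⟩
    · rw [← hy, ← pow_mul, mul_comm]
    · rw [← hy, ← pow_mul]

/-- For a finite set `T` of primes, `⨅ p ∈ T, H_p = H_{∏ T}`. -/
theorem iInf_powRange_primes (T : Finset ℕ) (hT : ∀ p ∈ T, p.Prime) :
    (⨅ p ∈ T, powRange G p) = powRange G (∏ p ∈ T, p) := by
  classical
  induction T using Finset.induction_on with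
  | empty =>
    simp only [Finset.notMem_empty, iInf_false, iInf_top, Finset.prod_empty]
    symm
    rw [eq_top_iff]
    intro x _
    exact mem_powRange.mpr ⟨x, pow_one x⟩
  | insert q T hq ih =>
    rw [Finset.iInf_insert, ih (fun p hp => hT p (Finset.mem_insert_of_mem hp)),
      Finset.prod_insert hq]
    apply powRange_inf_of_coprime
    apply Nat.Coprime.prod_right
    intro p hp
    rw [Nat.coprime_primes (hT q (Finset.mem_insert_self q T)) (hT p (Finset.mem_insert_of_mem hp))]
    rintro rfl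
    exact hq hp

variable [IsCyclic G] [Finite G]

/-- **(i), commutative form.** -/
theorem index_iInf_powRange (T : Finset ℕ) (hT : T ⊆ (Nat.card G).primeFactors) :
    (⨅ p ∈ T, powRange G p).index = ∏ p ∈ T, p := by
  rw [iInf_powRange_primes T (fun p hp => Nat.prime_of_mem_primeFactors (hT hp)),
    IsCyclic.index_powMonoidHom_range]
  apply Nat.gcd_eq_right
  exact (Finset.prod_dvd_prod_of_subset _ _ _ hT).trans (Nat.prod_primeFactors_dvd _)

theorem index_powRange_of_prime_dvd {p : ℕ} (hp : p ∣ Nat.card G) :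
    (powRange G p).index = p := by
  rw [IsCyclic.index_powMonoidHom_range]
  exact Nat.gcd_eq_right hp

/-- In a cyclic group of order `n`, for `p ∣ n`: `x ^ (n / p) = 1 → x` is a `p`-th power. -/
theorem mem_powRange_of_pow_eq_one {p : ℕ} (hp : p ∣ Nat.card G) (hp0 : 0 < p) {x : G}
    (hx : x ^ (Nat.card G / p) = 1) : x ∈ powRange G p := by
  obtain ⟨g, hg⟩ := IsCyclic.exists_generator (α := G)
  have hord : orderOf g = Nat.card G := orderOf_eq_card_of_forall_mem_zpowers hg
  have hn : 0 < Nat.card G := Nat.card_pos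
  obtain ⟨k, rfl⟩ : ∃ k : ℕ, g ^ k = x := by
    have := hg x
    rw [← mem_powers_iff_mem_zpowers] at this
    exact this
  rw [← pow_mul, ← orderOf_dvd_iff_pow_eq_one, hord] at hx
  obtain ⟨m, hm⟩ := hp
  have hm0 : 0 < m := by
    rcases Nat.eq_zero_or_pos m with h | h
    · rw [h, mul_zero] at hm; omega
    · exact h
  rw [hm, Nat.mul_div_cancel_left _ hp0] at hx
  -- `p * m ∣ k * m`, so `p ∣ k`
  have hpk : p ∣ k := Nat.dvd_of_mul_dvd_mul_right hm0 hx
  obtain ⟨j, rfl⟩ := hpk
  exact mem_powRange.mpr ⟨g ^ j, by rw [← pow_mul, mul_comm]⟩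

/-- **(ii), commutative form.** -/
theorem eq_top_iff_forall_not_le_powRange (D : Subgroup G) :
    D = ⊤ ↔ ∀ p ∈ (Nat.card G).primeFactors, ¬ D ≤ powRange G p := by
  constructor
  · rintro rfl p hp hle
    have hpr := Nat.prime_of_mem_primeFactors hp
    have hidx := index_powRange_of_prime_dvd (G := G) (Nat.dvd_of_mem_primeFactors hp)
    rw [top_le_iff] at hle
    rw [hle, Subgroup.index_top] at hidx
    exact hpr.one_lt.ne hidx
  · intro h
    by_contra hD
    have hidx : D.index ≠ 1 := fun h1 => hD (Subgroup.index_eq_one.mp h1)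
    obtain ⟨p, hp, hpd⟩ := Nat.exists_prime_and_dvd hidx
    have hn : Nat.card G ≠ 0 := Nat.card_pos.ne'
    have hpn : p ∣ Nat.card G := hpd.trans D.index_dvd_card
    refine h p (Nat.mem_primeFactors.mpr ⟨hp, hpn, hn⟩) ?_
    intro x hx
    apply mem_powRange_of_pow_eq_one hpn hp.pos
    -- `orderOf x ∣ |D| ∣ n / p`
    have h1 : orderOf x ∣ Nat.card D := D.orderOf_dvd_natCard hx
    have h2 : Nat.card D ∣ Nat.card G / p := by
      obtain ⟨m, hm⟩ := hpd
      have hcard := D.card_mul_index
      rw [hm] at hcard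
      -- `|D| * (p * m) = n`
      rw [← hcard, show Nat.card D * (p * m) = p * (Nat.card D * m) by ring,
        Nat.mul_div_cancel_left _ hp.pos]
      exact Dvd.intro _ rfl
    exact orderOf_dvd_iff_pow_eq_one.mp (h1.trans h2)

end Comm

/-! ### Version for a group with `[IsCyclic G]` -/

section Group

variable (G : Type*) [Group G] [IsCyclic G]

/-- The subgroup of `p`-th powers of a cyclic group. -/
def powSubgroup (p : ℕ) : Subgroup G :=
  letI : CommGroup G := IsCyclic.commGroup
  powRange G p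

variable {G}

theorem mem_powSubgroup {p : ℕ} {x : G} : x ∈ powSubgroup G p ↔ ∃ y, y ^ p = x := by
  letI : CommGroup G := IsCyclic.commGroup
  exact mem_powRange

theorem powSubgroup_eq_powRange {G : Type*} [CommGroup G] [IsCyclic G] (p : ℕ) :
    powSubgroup G p = powRange G p := by
  ext x
  rw [mem_powSubgroup, mem_powRange]

variable [Finite G]

/-- **WP-F5a (i).** -/
theorem index_iInf_powSubgroup (T : Finset ℕ) (hT : T ⊆ (Nat.card G).primeFactors) :
    (⨅ p ∈ T, powSubgroup G p).index = ∏ p ∈ T, p := by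
  letI : CommGroup G := IsCyclic.commGroup
  exact index_iInf_powRange T hT

/-- **WP-F5a (ii).** -/
theorem eq_top_iff_forall_not_le_powSubgroup (D : Subgroup G) :
    D = ⊤ ↔ ∀ p ∈ (Nat.card G).primeFactors, ¬ D ≤ powSubgroup G p := by
  letI : CommGroup G := IsCyclic.commGroup
  exact eq_top_iff_forall_not_le_powRange D

theorem index_powSubgroup_of_prime_dvd {p : ℕ} (hp : p ∣ Nat.card G) :
    (powSubgroup G p).index = p := by
  letI : CommGroup G := IsCyclic.commGroup
  exact index_powRange_of_prime_dvd hp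

instance powSubgroup_normal (p : ℕ) : (powSubgroup G p).Normal := by
  letI : CommGroup G := IsCyclic.commGroup
  exact Subgroup.normal_of_isMulCommutative (powRange G p)

end Group

end Fermat.Agent.Lib.FrobDensity.CyclicLemmas
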