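/-
helper62.  The two-sided form `FrobGeneratorDense` of the Frobenius density theorem in
`Gal(ℚ̄/ℚ)`: the restrictions of the Frobenius lift `σ` and of `g` to `L` are powers of each other.
Requested by helper52 (S52).  The bridge `frobGeneratorDense_of` is in `Bridge.lean` (helper54).
-/
import Mathlib
import Fermat.Agent.Lib.FrobDensity.Bridge
import Fermat.Agent.Lib.FrobDensity.Main

set_option autoImplicit false

namespace Fermat.Agent.Lib.FrobDensity

/-- **Frobenius density theorem, existence form, two-sided**, in `Gal(ℚ̄/ℚ)`. -/
theorem frobGeneratorDense : FrobGeneratorDense := frobGeneratorDense_of frobGenerator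

end Fermat.Agent.Lib.FrobDensity
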